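import Fermat.Agent.GalRep.Lattice
import Fermat.Agent.GalRep.DatumJZero
import Fermat.Agent.Carayol.Endgame.Quadratic
import Fermat.Agent.Carayol.Endgame.FixedVector
import Fermat.Agent.MazurStep.Global.ComplexConj
import Fermat.Agent.Semistable.S35Glue

/-!
# The representation on the lattice of an eigensystem

The eigen lattice of an eigensystem of the full Hecke algebra of level `N` has rank two, complex
conjugation is not scalar on it, and the Galois action on it has cyclotomic determinant and trace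
the eigenvalue at Frobenius elements. Relations on the torsion of `J₀(N)` pass to it.
-/

set_option autoImplicit false

noncomputable section

open IsLocalRing CuspForm Matrix
open Fermat.Agent.GalRep Fermat.Agent.Cosets Fermat.Agent.Carayol.Endgame
open Fermat.Agent.MazurStep.Global (conjBar parConjMat parConjMat_mulVec_periodEquiv
  torsRho_conjBar)

namespace Fermat.Agent.OrdinaryP

local notation "ℚbar" => AlgebraicClosure ℚ
local notation "Γℚ" => AlgebraicClosure ℚ ≃ₐ[ℚ] AlgebraicClosure ℚ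

/-! ### Eigenspaces over every field -/

/-- Dimensions of eigenspaces known over `ℂ` hold over every field of characteristic zero. -/
theorem finrank_eigenspace_of_complex {R : Type*} [CommRing R] [Module.Finite ℤ R] {d : ℕ}
    (t : Nat.Primes → Matrix (Fin d) (Fin d) ℤ) (a : Nat.Primes → R) {c : ℕ}
    (h : ∀ κ : R →+* ℂ, Module.finrank ℂ (eigenspace t fun q => κ (a q)) = c)
    {F : Type*} [Field F] [CharZero F] (κ : R →+* F) :
    Module.finrank F (eigenspace t fun q => κ (a q)) = c := by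
  let K : IntermediateField ℚ F := IntermediateField.adjoin ℚ (Set.range κ)
  have : Algebra.IsAlgebraic ℚ K := IntermediateField.isAlgebraic_adjoin fun x hx => by
    obtain ⟨y, rfl⟩ := hx
    have := (Algebra.IsIntegral.isIntegral (R := ℤ) y).map κ.toIntAlgHom
    exact this.tower_top
  let κK : R →+* K :=
    κ.codRestrict K.toSubring fun x => IntermediateField.subset_adjoin ℚ _ ⟨x, rfl⟩
  let σ : K →ₐ[ℚ] ℂ := IsAlgClosed.lift
  have h1 : Module.finrank F (eigenspace t fun q => κ (a q)) =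
      Module.finrank K (eigenspace t fun q => κK (a q)) :=
    finrank_eigenspace_map (algebraMap K F) t fun q => κK (a q)
  have h2 := finrank_eigenspace_map (σ : K →+* ℂ) t fun q => κK (a q)
  rw [h1, ← h2]
  exact h ((σ : K →+* ℂ).comp κK)

/-- One more operator can be added to a family indexed by the primes. -/
theorem exists_primes_option : Nonempty (Nat.Primes ≃ Option Nat.Primes) := by
  classical
  have : Infinite Nat.Primes := inferInstance
  obtain ⟨e⟩ := nonempty_equiv_of_countable (α := Nat.Primes) (β := Option Nat.Primes)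
  exact ⟨e⟩

theorem mem_eigenspace_option {F : Type*} [Field F] {d : ℕ}
    (t : Nat.Primes → Matrix (Fin d) (Fin d) ℤ) (C : Matrix (Fin d) (Fin d) ℤ)
    (a : Nat.Primes → F) (s : F) (e : Nat.Primes ≃ Option Nat.Primes) (w : Fin d → F) :
    w ∈ eigenspace (fun q => (e q).elim C t) (fun q => (e q).elim s a) ↔
      w ∈ eigenspace t a ∧ C.map (Int.cast : ℤ → F) *ᵥ w = s • w := by
  rw [mem_eigenspace, mem_eigenspace]
  constructor
  · intro h
    refine ⟨fun q => ?_, ?_⟩
    · simpa using h (e.symm (some q))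
    · simpa using h (e.symm none)
  · rintro ⟨h1, h2⟩ q
    cases e q with
    | none => exact h2
    | some r => exact h1 r

/-! ### The eigenspace of level `N` -/

variable (N : ℕ) [NeZero N]

local notation "ES" => eigenspace (heckeMat N)

theorem exists_eigenvectors (κ : heckeAlgebra N 2 ∅ →+* ℂ) :
    ∃ v : CuspForm (CongruenceSubgroup.Gamma0 N) 2, v ≠ 0 ∧
      ∀ f g, periodEquiv N (f, g) ∈ ES (fun q => κ (heckeOp N q)) ↔
        ∃ x y : ℂ, f = x • v ∧ g = y • v := by
  obtain ⟨v, hv0, hv⟩ := exists_isEigenvector N κ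
  have hsmul : ∀ x : ℂ, Hecke.IsEigenvector κ (x • v) := fun x τ => by
    rw [map_smul, hv τ, smul_comm]
  refine ⟨v, hv0, fun f g => ?_⟩
  rw [mem_eigenspace_periodEquiv_iff]
  constructor
  · rintro ⟨hf, hg⟩
    have mult : ∀ u : CuspForm (CongruenceSubgroup.Gamma0 N) 2, Hecke.IsEigenvector κ u →
        ∃ c : ℂ, u = c • v := by
      intro u hu
      refine ⟨ModularFormClass.qCoeff ⇑u 1 / ModularFormClass.qCoeff ⇑v 1,
        Hecke.ext_qCoeff fun n => ?_⟩
      have := hv.qCoeff_one_ne_zero hv0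
      rw [Hecke.qCoeff_smul, hu.qCoeff_eq, hv.qCoeff_eq n]
      field_simp
    obtain ⟨x, hx⟩ := mult f hf
    obtain ⟨y, hy⟩ := mult g hg
    exact ⟨x, y, hx, hy⟩
  · rintro ⟨x, y, rfl, rfl⟩
    exact ⟨hsmul x, hsmul y⟩

theorem finrank_eigenspace_complex (κ : heckeAlgebra N 2 ∅ →+* ℂ) :
    Module.finrank ℂ (ES (fun q => κ (heckeOp N q))) = 2 := by
  refine le_antisymm (heckeMat_eigen_le N κ) ?_
  obtain ⟨v, hv0, hv⟩ := exists_eigenvectors N κ
  have h1 := (hv v 0).mpr ⟨1, 0, (one_smul _ _).symm, (zero_smul _ _).symm⟩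
  have h2 := (hv 0 v).mpr ⟨0, 1, (zero_smul _ _).symm, (one_smul _ _).symm⟩
  have hli : LinearIndependent ℂ
      ![(⟨_, h1⟩ : ES (fun q => κ (heckeOp N q))), ⟨_, h2⟩] := by
    refine LinearIndependent.pair_iff.mpr fun x y hxy => ?_
    have h := congrArg Subtype.val hxy
    simp only [Submodule.coe_add, SetLike.val_smul, Submodule.coe_zero] at h
    rw [← map_smul, ← map_smul, ← map_add, LinearEquiv.map_eq_zero_iff, Prod.smul_mk,
      Prod.smul_mk, Prod.mk_add_mk, Prod.mk_eq_zero, smul_zero, smul_zero, add_zero, zero_add,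
      smul_eq_zero, smul_eq_zero] at h
    exact ⟨h.1.resolve_right hv0, h.2.resolve_right hv0⟩
  simpa using hli.fintype_card_le_finrank

theorem finrank_eigenspace_conj_complex (κ : heckeAlgebra N 2 ∅ →+* ℂ)
    (e : Nat.Primes ≃ Option Nat.Primes) {s : ℤ} (hs : s = 1 ∨ s = -1) :
    Module.finrank ℂ (eigenspace (fun q => (e q).elim (parConjMat N) (heckeMat N))
      fun q => κ ((e q).elim (s : heckeAlgebra N 2 ∅) (heckeOp N))) = 1 := by
  obtain ⟨v, hv0, hv⟩ := exists_eigenvectors N κ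
  set u := if s = 1 then periodEquiv N (v, 0) else periodEquiv N (0, v) with hu
  have hu0 : u ≠ 0 := by
    rw [hu]; split_ifs <;>
      simp [Prod.ext_iff, hv0]
  have hfun : (fun q => κ ((e q).elim (s : heckeAlgebra N 2 ∅) (heckeOp N))) =
      fun q => (e q).elim (s : ℂ) fun r => κ (heckeOp N r) := by
    funext q
    cases e q with
    | none => simp
    | some r => rfl
  rw [hfun]
  suffices h : eigenspace (fun q => (e q).elim (parConjMat N) (heckeMat N))
      (fun q => (e q).elim (s : ℂ) fun r => κ (heckeOp N r)) = Submodule.span ℂ {u} by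
    rw [h, finrank_span_singleton hu0]
  ext w
  obtain ⟨⟨f, g⟩, rfl⟩ := (periodEquiv N).surjective w
  rw [mem_eigenspace_option, hv, parConjMat_mulVec_periodEquiv, ← map_smul,
    (periodEquiv N).injective.eq_iff, Submodule.mem_span_singleton, Prod.smul_mk, Prod.mk.injEq]
  have hneg : ∀ w : CuspForm (CongruenceSubgroup.Gamma0 N) 2, -w = w → w = 0 := fun w hw => by
    have h2 : (2 : ℂ) • w = 0 := by rw [two_smul]; exact neg_eq_iff_add_eq_zero.mp hw
    exact (smul_eq_zero.mp h2).resolve_left two_ne_zero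
  rcases hs with rfl | rfl
  · simp only [if_true] at hu
    simp only [hu, Int.cast_one, one_smul, true_and, ← map_smul,
      (periodEquiv N).injective.eq_iff, Prod.smul_mk, smul_zero, Prod.mk.injEq]
    constructor
    · rintro ⟨⟨x, y, rfl, rfl⟩, hg⟩
      exact ⟨x, rfl, (hneg _ hg).symm⟩
    · rintro ⟨x, rfl, rfl⟩
      exact ⟨⟨x, 0, rfl, (zero_smul _ _).symm⟩, neg_zero⟩
  · rw [if_neg (by norm_num)] at hu
    simp only [hu, Int.cast_neg, Int.cast_one, neg_smul, one_smul, and_true, ← map_smul,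
      (periodEquiv N).injective.eq_iff, Prod.smul_mk, smul_zero, Prod.mk.injEq]
    constructor
    · rintro ⟨⟨x, y, rfl, rfl⟩, hf⟩
      exact ⟨y, (hneg _ hf.symm).symm, rfl⟩
    · rintro ⟨y, rfl, rfl⟩
      exact ⟨⟨0, y, (zero_smul _ _).symm, rfl⟩, neg_zero.symm⟩

section Field

variable {F : Type*} [Field F] [CharZero F] [Module.Finite ℤ (heckeAlgebra N 2 ∅)]
  (κ : heckeAlgebra N 2 ∅ →+* F)

theorem finrank_eigenspace_eq_two : Module.finrank F (ES (fun q => κ (heckeOp N q))) = 2 :=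
  finrank_eigenspace_of_complex _ _ (finrank_eigenspace_complex N) κ

/-- The involution is not scalar on the eigenspace. -/
theorem exists_conj_ne_smul (z : F) :
    ∃ w ∈ ES (fun q => κ (heckeOp N q)),
      (parConjMat N).map (Int.cast : ℤ → F) *ᵥ w ≠ z • w := by
  by_contra hcon
  push Not at hcon
  obtain ⟨e⟩ := exists_primes_option
  have hdim : ∀ s : ℤ, s = 1 ∨ s = -1 → Module.finrank F
      (eigenspace (fun q => (e q).elim (parConjMat N) (heckeMat N))
        (fun q => (e q).elim (s : F) fun r => κ (heckeOp N r))) = 1 := fun s hs => by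
    have h := finrank_eigenspace_of_complex _ _
      (fun κ' => finrank_eigenspace_conj_complex N κ' e hs) κ
    rw [show (fun q => (e q).elim (s : F) fun r => κ (heckeOp N r)) =
        fun q => κ ((e q).elim (s : heckeAlgebra N 2 ∅) (heckeOp N)) from funext fun q => by
      cases e q with
      | none => simp
      | some r => rfl]
    exact h
  -- the two pieces
  have hz : ∀ s : ℤ, s = 1 ∨ s = -1 → z = (s : F) := fun s hs => by
    obtain ⟨⟨w, hw⟩, hw0⟩ :=
      (Module.finrank_pos_iff_exists_ne_zero (R := F)).mp ((hdim s hs).symm ▸ one_pos)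
    rw [mem_eigenspace_option] at hw
    have h := (hcon w hw.1).symm.trans hw.2
    rw [← sub_eq_zero, ← sub_smul, smul_eq_zero] at h
    exact sub_eq_zero.mp (h.resolve_right fun h0 => hw0 (Subtype.ext h0))
  have h1 := (hz 1 (Or.inl rfl)).symm.trans (hz (-1) (Or.inr rfl))
  norm_num at h1

end Field

/-! ### The representation -/

variable (p : ℕ) [Fact p.Prime] {O : Type} [CommRing O] [IsDomain O] [IsDiscreteValuationRing O]
  [IsAdicComplete (maximalIdeal O) O] [CharZero O]

omit [CharZero O] in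
/-- A `p`-adic identity vanishing modulo `p ^ n`. -/
theorem mapMatrix_mem_pow (hp : (p : O) ∈ maximalIdeal O) {d n : ℕ}
    {X : Matrix (Fin d) (Fin d) ℤ_[p]} (h : (PadicInt.toZModPow n).mapMatrix X = 0) (i j : Fin d) :
    (padicHom p O hp).mapMatrix X i j ∈ maximalIdeal O ^ n :=
  padicHom_mem_pow p O hp (congrFun (congrFun h i) j)

/-- The representation on the eigen lattice, inside the torsion of `J₀(N)`. -/
structure EigenRep (hp : (p : O) ∈ maximalIdeal O) (κ : heckeAlgebra N 2 ∅ →+* O) where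
  /-- the action on the Tate module -/
  Rp : Γℚ →* Matrix (Fin (homRank N)) (Fin (homRank N)) ℤ_[p]
  toZModPow_Rp : ∀ n σ, (PadicInt.toZModPow n).mapMatrix (Rp σ) = torsRho N (p ^ n) σ
  /-- the lattice -/
  P : Matrix (Fin (homRank N)) (Fin 2) O
  /-- a retraction -/
  Q : Matrix (Fin 2) (Fin (homRank N)) O
  Q_mul_P : Q * P = 1
  /-- the representation -/
  R : Γℚ →* Matrix (Fin 2) (Fin 2) O
  continuous : MatrixContinuous R
  intertwine : ∀ σ, (padicHom p O hp).mapMatrix (Rp σ) * P = P * R σ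
  eigen : ∀ q, (heckeMat N q).map (Int.cast : ℤ → O) * P = κ (heckeOp N q) • P
  det_eq : ∀ σ, (R σ).det = padicHom p O hp (cycl p σ)
  trace_frobenius : ∀ (ℓ : ℕ) (hℓ : ℓ.Prime), ¬ ℓ ∣ N * p → ∀ A : ValuationSubring ℚbar,
    A.LiesOverPrime ℓ → ∀ σ : Γℚ, A.IsFrobeniusAt σ ℓ →
      (R σ).trace = κ (heckeOp N ⟨ℓ, hℓ⟩)

theorem finrank_range_eq_of_mul {K : Type*} [Field K] {d r : ℕ} {P : Matrix (Fin d) (Fin r) K}
    {Q : Matrix (Fin r) (Fin d) K} (h : Q * P = 1) :
    Module.finrank K (LinearMap.range P.mulVecLin) = r := by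
  rw [LinearMap.finrank_range_of_inj fun x y hxy => ?_, Module.finrank_fin_fun]
  have := congrArg (Q *ᵥ ·) hxy
  simpa [Matrix.mulVec_mulVec, h] using this

omit [IsAdicComplete (maximalIdeal O) O] [CharZero O] in
/-- Coordinates on an eigen lattice of rank two. -/
theorem exists_lattice {d : ℕ} (t : Nat.Primes → Matrix (Fin d) (Fin d) ℤ) (a : Nat.Primes → O)
    (hdim : Module.finrank (FractionRing O)
      (eigenspace t fun q => algebraMap O (FractionRing O) (a q)) = 2) :
    ∃ (P : Matrix (Fin d) (Fin 2) O) (Q : Matrix (Fin 2) (Fin d) O), Q * P = 1 ∧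
      (∀ q, (t q).map (Int.cast : ℤ → O) * P = a q • P) ∧
      (∀ X : Matrix (Fin d) (Fin d) O, (∀ q, Commute X ((t q).map (Int.cast : ℤ → O))) →
        X * P = P * (Q * X * P)) ∧
      LinearMap.range (P.map (algebraMap O (FractionRing O))).mulVecLin =
        eigenspace t fun q => algebraMap O (FractionRing O) (a q) := by
  classical
  let L := eigenLattice t a
  have hsat : ∀ (c : O) (v : Fin d → O), c ≠ 0 → c • v ∈ L → v ∈ L :=
    fun c v hc hv q => smul_right_injective (Fin d → O) hc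
      ((Matrix.mulVec_smul _ c v).symm.trans ((hv q).trans (smul_comm _ _ _)))
  obtain ⟨r, P, Q, hQP, hPL, hPQ⟩ := exists_coordinates L hsat
  set E := FractionRing O
  set PE := P.map (algebraMap O E) with hPE
  have hQPE : Q.map (algebraMap O E) * PE = 1 := by
    rw [hPE, ← Matrix.map_mul, hQP, Matrix.map_one _ (map_zero _) (map_one _)]
  have hrange : LinearMap.range PE.mulVecLin = eigenspace t fun q => algebraMap O E (a q) := by
    refine le_antisymm ?_ fun w hw => ?_
    · rw [Matrix.range_mulVecLin, Submodule.span_le]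
      rintro _ ⟨j, rfl⟩
      have hcol : PE.col j = algebraMap O E ∘ (P *ᵥ Pi.single j 1) := by
        funext i
        simp [hPE, Matrix.col]
      rw [hcol]
      exact comp_mem_eigenspace E (hPL (Pi.single j 1))
    · obtain ⟨c, hc⟩ := IsLocalization.exist_integer_multiples (nonZeroDivisors O)
        (Finset.univ : Finset (Fin d)) w
      choose v hv using fun i => hc i (Finset.mem_univ i)
      have hvw : algebraMap O E ∘ v = (c : O) • w := funext hv
      have hvL : v ∈ L := fun q => by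
        funext i
        apply IsFractionRing.injective O E
        rw [RingHom.map_mulVec, Matrix.map_map, hvw, Matrix.mulVec_smul]
        have h1 : (algebraMap O E ∘ (Int.cast : ℤ → O)) = (Int.cast : ℤ → E) :=
          funext fun n => by simp
        rw [h1, (mem_eigenspace _ _ _).mp hw q]
        simp [hv i, Algebra.smul_def]
        ring
      have hc0 : algebraMap O E c ≠ 0 := fun h => nonZeroDivisors.ne_zero c.2
        ((map_eq_zero_iff _ (IsFractionRing.injective O E)).mp h)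
      refine ⟨(algebraMap O E c)⁻¹ • (algebraMap O E ∘ (Q *ᵥ v)), ?_⟩
      have h1 : PE *ᵥ (algebraMap O E ∘ (Q *ᵥ v)) = algebraMap O E ∘ v := by
        funext i
        rw [hPE, ← RingHom.map_mulVec, hPQ v hvL]
        rfl
      rw [Matrix.mulVecLin_apply, Matrix.mulVec_smul, h1, hvw,
        ← IsScalarTower.algebraMap_smul E (c : O) w, smul_smul, inv_mul_cancel₀ hc0, one_smul]
  have hr : r = 2 := by rw [← finrank_range_eq_of_mul hQPE, hrange, hdim]
  subst hr
  refine ⟨P, Q, hQP, fun q => ?_, fun X hX => ?_, hrange⟩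
  · refine Matrix.ext_of_mulVec_single fun i => ?_
    rw [← Matrix.mulVec_mulVec, hPL (Pi.single i 1) q, Matrix.smul_mulVec]
  · refine Matrix.ext_of_mulVec_single fun i => ?_
    simp only [← Matrix.mulVec_mulVec]
    refine (hPQ _ ?_).symm
    intro q
    rw [Matrix.mulVec_mulVec, ← (hX q).eq, ← Matrix.mulVec_mulVec, hPL (Pi.single i 1) q,
      Matrix.mulVec_smul]

/-- Quadratic relations at Frobenius elements and one non-scalar element fix the characteristic
polynomial. -/
theorem det_trace_of_quad (hp : (p : O) ∈ maximalIdeal O) (M : ℕ) (hM : M ≠ 0)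
    (R : Γℚ →* Matrix (Fin 2) (Fin 2) O) (hRc : MatrixContinuous R) (a : Nat.Primes → O)
    (hquad : ∀ (ℓ : ℕ) (hℓ : ℓ.Prime), ¬ ℓ ∣ M → ∀ A : ValuationSubring ℚbar,
      A.LiesOverPrime ℓ → ∀ σ : Γℚ, A.IsFrobeniusAt σ ℓ →
        R σ * R σ - a ⟨ℓ, hℓ⟩ • R σ + (ℓ : O) • (1 : Matrix (Fin 2) (Fin 2) O) = 0)
    (hpM : p ∣ M) {c : Γℚ} (hc : ¬ ∃ z : O, R c = z • (1 : Matrix (Fin 2) (Fin 2) O)) :
    (∀ σ, (R σ).det = padicHom p O hp (cycl p σ)) ∧
      ∀ (ℓ : ℕ) (hℓ : ℓ.Prime), ¬ ℓ ∣ M → ∀ A : ValuationSubring ℚbar, A.LiesOverPrime ℓ →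
        ∀ σ : Γℚ, A.IsFrobeniusAt σ ℓ → (R σ).trace = a ⟨ℓ, hℓ⟩ := by
  classical
  let S : Finset ℕ := M.primeFactors
  have hS : ∀ {ℓ : ℕ}, ℓ.Prime → ℓ ∉ S → ¬ ℓ ∣ M := fun hℓ hℓS hd =>
    hℓS (Nat.mem_primeFactors.mpr ⟨hℓ, hd, hM⟩)
  have hpS : p ∈ S := Nat.mem_primeFactors.mpr ⟨Fact.out, hpM, hM⟩
  let aℓ : ℕ → O := fun ℓ => if h : ℓ.Prime then a ⟨ℓ, h⟩ else 0
  obtain ⟨ρ, hρ, -⟩ := exists_rep_charpoly hp (fun n hn => Nat.cast_ne_zero.mpr hn)
    ((Fintype.card_fin 2).le) R hRc S hpS aℓ fun ℓ hℓ hℓS A hA σ hσ => by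
      simp only [aℓ, dif_pos hℓ]
      exact hquad ℓ hℓ (hS hℓ hℓS) A hA σ hσ
  obtain ⟨R₂, hR₂, hR₂td⟩ := Semistable.exists_matrix_rep ρ
  have hfrob : ∀ (ℓ : ℕ) (hℓ : ℓ.Prime), ℓ ∉ S → ∀ A : ValuationSubring ℚbar,
      A.LiesOverPrime ℓ → ∀ σ : Γℚ, A.IsFrobeniusAt σ ℓ →
        (R₂ σ).trace = a ⟨ℓ, hℓ⟩ ∧ (R₂ σ).det = (ℓ : O) :=
    fun ℓ hℓ hℓS A hA σ hσ => by
    have h := hρ ℓ hℓ hℓS A hA σ hσ
    simp only [aℓ, dif_pos hℓ] at h
    obtain ⟨ht, hd⟩ := Carayol.Endgame.trace_det_of_charpoly ρ h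
    exact ⟨(hR₂td σ).1.trans ht, (hR₂td σ).2.trans hd⟩
  have hrel : ∀ σ, QuadRel (R σ) (R₂ σ) :=
    quadRel_of_forall_frobenius R hRc R₂ hR₂ (↑S : Set ℕ) S.finite_toSet
      fun ℓ hℓ hℓS A hA τ hτ => by
      have hℓS' : ℓ ∉ S := by simpa using hℓS
      rw [QuadRel, (hfrob ℓ hℓ hℓS' A hA τ hτ).1, (hfrob ℓ hℓ hℓS' A hA τ hτ).2]
      exact hquad ℓ hℓ (hS hℓ hℓS') A hA τ hτ
  have hχ : ∀ σ, (R₂ σ).det = padicHom p O hp (cycl p σ) :=
    Semistable.det_eq_cycl p hp R₂ hR₂ S hpS fun ℓ hℓ hℓS A hA τ hτ =>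
      (hfrob ℓ hℓ hℓS A hA τ hτ).2
  have hdet : ∀ σ, (R σ).det = padicHom p O hp (cycl p σ) := by
    have hnon : ∀ σ, (¬ ∃ z : O, R σ = z • (1 : Matrix (Fin 2) (Fin 2) O)) →
        (R σ).det = padicHom p O hp (cycl p σ) := fun σ hσ =>
      (((scalar_or_trace_det _ _ _ (hrel σ)).resolve_left hσ).2).trans (hχ σ)
    intro σ
    by_cases hσ : ∃ z : O, R σ = z • (1 : Matrix (Fin 2) (Fin 2) O)
    swap; · exact hnon σ hσ
    obtain ⟨z, hz⟩ := hσ
    have hu := (Matrix.isUnit_iff_isUnit_det _).mp ((Group.isUnit σ).map R)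
    rw [hz, Matrix.det_smul, Matrix.det_one, mul_one] at hu
    have hzu : IsUnit z := (isUnit_pow_iff (by simp)).mp hu
    have hne : ¬ ∃ w : O, R (σ * c) = w • (1 : Matrix (Fin 2) (Fin 2) O) := by
      rintro ⟨w, hw⟩
      refine hc ⟨↑hzu.unit⁻¹ * w, ?_⟩
      rw [map_mul, hz, smul_mul_assoc, one_mul] at hw
      rw [mul_smul, ← hw, smul_smul, IsUnit.val_inv_mul, one_smul]
    have h := hnon _ hne
    rw [map_mul, Matrix.det_mul, hnon c hc, map_mul, map_mul] at h
    exact (((Group.isUnit c).map (cycl p)).map (padicHom p O hp)).mul_right_cancel h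
  refine ⟨hdet, fun ℓ hℓ hℓM A hA σ hσ => ?_⟩
  have hℓS : ℓ ∉ S := fun h => hℓM (Nat.mem_primeFactors.mp h).2.1
  have hd : (R σ).det = (ℓ : O) := by rw [hdet, ← hχ, (hfrob ℓ hℓ hℓS A hA σ hσ).2]
  have hq := hquad ℓ hℓ hℓM A hA σ hσ
  rcases scalar_or_trace_det _ _ _ hq with ⟨z, hz⟩ | ⟨ht, -⟩
  · have he := congrFun (congrFun hq 0) 0
    rw [hz] at he hd ⊢
    simp at he hd
    simp
    have hz0 : z ≠ 0 := by
      rintro rfl
      exact hℓ.ne_zero (by simpa using hd.symm)
    exact mul_left_cancel₀ hz0 (by linear_combination he + hd)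
  · exact ht

omit [CharZero O] in
theorem mapMatrix_intCast (hp : (p : O) ∈ maximalIdeal O) {d : ℕ}
    (M : Matrix (Fin d) (Fin d) ℤ) :
    (padicHom p O hp).mapMatrix (M.map (Int.cast : ℤ → ℤ_[p])) = M.map (Int.cast : ℤ → O) :=
  Matrix.ext fun _ _ => map_intCast (padicHom p O hp) _

/-- The action on the Tate module. -/
theorem exists_tateRep (hred : TorsionReduction N p) :
    ∃ Rp : Γℚ →* Matrix (Fin (homRank N)) (Fin (homRank N)) ℤ_[p],
      (∀ n σ, (PadicInt.toZModPow n).mapMatrix (Rp σ) = torsRho N (p ^ n) σ) ∧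
      (∀ σ q, Commute (Rp σ) ((heckeMat N q).map (Int.cast : ℤ → ℤ_[p]))) ∧
      (∀ (ℓ : ℕ) (hℓ : ℓ.Prime), ¬ ℓ ∣ N * p → ∀ A : ValuationSubring ℚbar,
        A.LiesOverPrime ℓ → ∀ σ : Γℚ, A.IsFrobeniusAt σ ℓ →
          Rp σ * Rp σ - (heckeMat N ⟨ℓ, hℓ⟩).map (Int.cast : ℤ → ℤ_[p]) * Rp σ +
            (ℓ : Matrix (Fin (homRank N)) (Fin (homRank N)) ℤ_[p]) = 0) ∧
      (∀ n, ∃ E : IntermediateField ℚ ℚbar, FiniteDimensional ℚ E ∧
        ∀ σ : Γℚ, (∀ x ∈ E, σ x = x) → (PadicInt.toZModPow n).mapMatrix (Rp σ - 1) = 0) ∧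
      Rp conjBar = -(parConjMat N).map (Int.cast : ℤ → ℤ_[p]) := by
  have : NeZero p := ⟨(Fact.out : p.Prime).ne_zero⟩
  obtain ⟨Rp, hRp⟩ := exists_padic_lift (fun n => torsRho N (p ^ n)) (torsRho_cast N p)
  have hlift : ∀ A B : Matrix (Fin (homRank N)) (Fin (homRank N)) ℤ_[p],
      (∀ n, (PadicInt.toZModPow n).mapMatrix A = (PadicInt.toZModPow n).mapMatrix B) → A = B :=
    fun A B h => Matrix.ext fun i j => PadicInt.ext_of_toZModPow.mp fun n =>
      congrFun (congrFun (h n) i) j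
  have hmapint : ∀ (M : Matrix (Fin (homRank N)) (Fin (homRank N)) ℤ) (n : ℕ),
      (PadicInt.toZModPow n).mapMatrix (M.map (Int.cast : ℤ → ℤ_[p])) =
        M.map (Int.cast : ℤ → ZMod (p ^ n)) := fun M n =>
    Matrix.ext fun i j => map_intCast (PadicInt.toZModPow n) _
  refine ⟨Rp, hRp, fun σ q => hlift _ _ fun n => ?_, fun ℓ hℓ hℓNp A hA σ hσ =>
    hlift _ _ fun n => ?_, fun n => ?_, hlift _ _ fun n => ?_⟩
  · rw [map_mul, map_mul, hRp, hmapint]
    exact torsRho_commute N (p ^ n) σ q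
  · rw [map_add, map_sub, map_mul, map_mul, map_natCast, map_zero, hRp, hmapint]
    exact (jZeroDatum N p hred).quadratic n ℓ hℓ hℓNp A hA σ hσ
  · obtain ⟨E, hE, h⟩ := torsRho_finiteLevel N (p ^ n)
    exact ⟨E, hE, fun σ hσ => by rw [map_sub, map_one, hRp, h σ hσ, sub_self]⟩
  · rw [hRp, map_neg, hmapint, torsRho_conjBar]

/-- Restriction of a commuting action to coordinates. -/
def restrictHom {G : Type*} [Monoid G] {d : ℕ} {P : Matrix (Fin d) (Fin 2) O}
    {Q : Matrix (Fin 2) (Fin d) O} (hQP : Q * P = 1) (RO : G →* Matrix (Fin d) (Fin d) O)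
    (h : ∀ g, RO g * P = P * (Q * RO g * P)) : G →* Matrix (Fin 2) (Fin 2) O where
  toFun g := Q * RO g * P
  map_one' := by rw [map_one, Matrix.mul_one, hQP]
  map_mul' g g' := by
    rw [map_mul, show Q * (RO g * RO g') * P = Q * RO g * (RO g' * P) by
      simp only [Matrix.mul_assoc], h g']
    simp only [Matrix.mul_assoc]

omit [IsDiscreteValuationRing O] [IsDomain O] [CharZero O] [IsAdicComplete (maximalIdeal O) O] in
/-- A quadratic relation restricts to coordinates. -/
theorem restrict_quad {d : ℕ} {P : Matrix (Fin d) (Fin 2) O} {Q : Matrix (Fin 2) (Fin d) O}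
    (hQP : Q * P = 1) {X T : Matrix (Fin d) (Fin d) O} (hXT : Commute X T)
    (hX : X * P = P * (Q * X * P)) {a : O} (hT : T * P = a • P) (c : ℕ)
    (h : X * X - T * X + (c : Matrix (Fin d) (Fin d) O) = 0) :
    (Q * X * P) * (Q * X * P) - a • (Q * X * P) + (c : O) • (1 : Matrix (Fin 2) (Fin 2) O) = 0 := by
  have h1 := congrArg (Q * · * P) h
  simp only [Matrix.mul_add, Matrix.mul_sub, Matrix.add_mul, Matrix.sub_mul, Matrix.mul_zero,
    Matrix.zero_mul] at h1
  have e1 : Q * (X * X) * P = (Q * X * P) * (Q * X * P) := by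
    rw [show Q * (X * X) * P = Q * X * (X * P) by simp only [Matrix.mul_assoc], hX]
    simp only [Matrix.mul_assoc]
  have e2 : Q * (T * X) * P = a • (Q * X * P) := by
    rw [← hXT.eq, show Q * (X * T) * P = Q * X * (T * P) by simp only [Matrix.mul_assoc], hT,
      Matrix.mul_smul]
  have e3 : Q * (c : Matrix (Fin d) (Fin d) O) * P = (c : O) • (1 : Matrix (Fin 2) (Fin 2) O) := by
    rw [← nsmul_one c, Matrix.mul_smul, Matrix.smul_mul, Matrix.mul_one, hQP,
      Nat.cast_smul_eq_nsmul]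
  rwa [e1, e2, e3] at h1

omit [IsDiscreteValuationRing O] [IsDomain O] [CharZero O] [IsAdicComplete (maximalIdeal O) O] in
theorem restrict_congr [IsLocalRing O] {d : ℕ} {P : Matrix (Fin d) (Fin 2) O}
    {Q : Matrix (Fin 2) (Fin d) O} (hQP : Q * P = 1) {X : Matrix (Fin d) (Fin d) O} {n : ℕ}
    (h : ∀ i j, X i j - (1 : Matrix (Fin d) (Fin d) O) i j ∈ maximalIdeal O ^ n) (i j : Fin 2) :
    (Q * X * P) i j - (1 : Matrix (Fin 2) (Fin 2) O) i j ∈ maximalIdeal O ^ n := by
  have h1 : Q * X * P - 1 = Q * (X - 1) * P := by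
    rw [Matrix.mul_sub, Matrix.sub_mul, Matrix.mul_one, hQP]
  rw [← Matrix.sub_apply, h1, Matrix.mul_apply]
  refine sum_mem fun k _ => Ideal.mul_mem_right _ _ ?_
  rw [Matrix.mul_apply]
  exact sum_mem fun l _ => Ideal.mul_mem_left _ _ (h l k)

omit [IsDiscreteValuationRing O] in
omit [IsAdicComplete (maximalIdeal O) O] in
/-- The involution is not scalar on the lattice. -/
theorem conj_not_scalar (κ : heckeAlgebra N 2 ∅ →+* O)
    [Module.Finite ℤ (heckeAlgebra N 2 ∅)] {P : Matrix (Fin (homRank N)) (Fin 2) O}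
    (hrange : LinearMap.range (P.map (algebraMap O (FractionRing O))).mulVecLin =
      eigenspace (heckeMat N) fun q => algebraMap O (FractionRing O) (κ (heckeOp N q))) (z : O) :
    (parConjMat N).map (Int.cast : ℤ → O) * P ≠ z • P := by
  intro h1
  have : CharZero (FractionRing O) :=
    charZero_of_injective_algebraMap (IsFractionRing.injective O (FractionRing O))
  obtain ⟨w, hw, hne⟩ := exists_conj_ne_smul N ((algebraMap O (FractionRing O)).comp κ)
    (algebraMap O (FractionRing O) z)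
  refine hne ?_
  rw [RingHom.coe_comp] at hw
  simp only [Function.comp_apply] at hw
  rw [← hrange] at hw
  obtain ⟨x, rfl⟩ := hw
  have h3 := congrArg (Matrix.map · (algebraMap O (FractionRing O))) h1
  simp only [Matrix.map_mul, Matrix.map_map] at h3
  have h4 : (algebraMap O (FractionRing O) ∘ (Int.cast : ℤ → O)) =
      (Int.cast : ℤ → FractionRing O) := funext fun n => by simp
  rw [h4] at h3
  rw [Matrix.mulVecLin_apply, Matrix.mulVec_mulVec, h3,
    show (z • P).map (algebraMap O (FractionRing O)) =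
      algebraMap O (FractionRing O) z • P.map (algebraMap O (FractionRing O)) from
      Matrix.ext fun i j => by simp, Matrix.smul_mulVec]

/-- **The representation on the eigen lattice exists.** -/
theorem exists_eigenRep (hred : TorsionReduction N p) (hp : (p : O) ∈ maximalIdeal O)
    [Module.Finite ℤ (heckeAlgebra N 2 ∅)] (κ : heckeAlgebra N 2 ∅ →+* O) :
    Nonempty (EigenRep N p hp κ) := by
  classical
  have : CharZero (FractionRing O) :=
    charZero_of_injective_algebraMap (IsFractionRing.injective O (FractionRing O))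
  obtain ⟨Rp, hRp, hcommp, hquadp, hcontp, hconj⟩ := exists_tateRep N p hred
  set RO : Γℚ →* Matrix (Fin (homRank N)) (Fin (homRank N)) O :=
    (padicHom p O hp).mapMatrix.toMonoidHom.comp Rp with hRO
  have hROapply : ∀ σ, RO σ = (padicHom p O hp).mapMatrix (Rp σ) := fun σ => rfl
  have hcomm : ∀ σ q, Commute (RO σ) ((heckeMat N q).map (Int.cast : ℤ → O)) := fun σ q => by
    rw [← mapMatrix_intCast p hp, hROapply]
    exact (hcommp σ q).map _
  obtain ⟨P, Q, hQP, heig, hX, hrange⟩ := exists_lattice (heckeMat N)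
    (fun q => κ (heckeOp N q))
    (finrank_eigenspace_eq_two N ((algebraMap O (FractionRing O)).comp κ))
  have hR : ∀ σ, RO σ * P = P * (Q * RO σ * P) := fun σ => hX _ (hcomm σ)
  set R := restrictHom hQP RO hR with hRdef
  have hRapply : ∀ σ, R σ = Q * RO σ * P := fun σ => rfl
  have hRc : MatrixContinuous R := fun n => by
    obtain ⟨E, hE, h⟩ := hcontp n
    refine ⟨E, hE, fun σ hσ => restrict_congr hQP fun i j => ?_⟩
    have h2 := mapMatrix_mem_pow p hp (h σ hσ) i j
    rwa [map_sub, map_one, Matrix.sub_apply] at h2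
  have hc : ¬ ∃ z : O, R conjBar = z • (1 : Matrix (Fin 2) (Fin 2) O) := by
    rintro ⟨z, hz⟩
    refine conj_not_scalar N κ hrange (-z) ?_
    have h2 := hR conjBar
    rw [← hRapply, hz, Matrix.mul_smul, Matrix.mul_one, hROapply, hconj, map_neg,
      mapMatrix_intCast p hp, Matrix.neg_mul] at h2
    rw [neg_smul, ← h2, neg_neg]
  have hquad : ∀ (ℓ : ℕ) (hℓ : ℓ.Prime), ¬ ℓ ∣ N * p → ∀ A : ValuationSubring ℚbar,
      A.LiesOverPrime ℓ → ∀ σ : Γℚ, A.IsFrobeniusAt σ ℓ →
        R σ * R σ - κ (heckeOp N ⟨ℓ, hℓ⟩) • R σ + (ℓ : O) • (1 : Matrix (Fin 2) (Fin 2) O) = 0 := by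
    intro ℓ hℓ hℓNp A hA σ hσ
    refine restrict_quad hQP (hcomm σ ⟨ℓ, hℓ⟩) (hR σ) (heig ⟨ℓ, hℓ⟩) ℓ ?_
    have hqO := congrArg (padicHom p O hp).mapMatrix (hquadp ℓ hℓ hℓNp A hA σ hσ)
    rw [map_add, map_sub, map_mul, map_mul, map_natCast, map_zero, mapMatrix_intCast p hp] at hqO
    exact hqO
  obtain ⟨hdet, htr⟩ := det_trace_of_quad p hp (N * p)
    (mul_ne_zero (NeZero.ne N) (Fact.out : p.Prime).ne_zero) R hRc
    (fun q => κ (heckeOp N q)) hquad (dvd_mul_left p N) hc
  exact ⟨{ Rp := Rp, toZModPow_Rp := hRp, P := P, Q := Q, Q_mul_P := hQP, R := R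
           continuous := hRc, intertwine := hR, eigen := heig, det_eq := hdet
           trace_frobenius := htr }⟩

end Fermat.Agent.OrdinaryP
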