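import Fermat.Agent.OrdinaryP.Residue
import Fermat.Agent.MazurStep.Pairing
import Fermat.Agent.MFCore.Integral
import Fermat.Agent.Kummer.Card
import Fermat.Agent.CurveTorsion.Models
import Fermat.Agent.FF.ModularField
import Fermat.Agent.S20
import Fermat.Prelude.Thm_CongruenceSubgroup_one_mem_strictPeriods_Gamma0
import Fermat.Prelude.Thm_CuspForm_intLattice_fg
import Fermat.Prelude.Thm_CuspForm_mem_intLattice_of_coe_eq_heckeT
import Fermat.Prelude.Thm_CuspForm_mem_intLattice_of_coe_eq_heckeU
import Fermat.Prelude.Thm_ModularFormClass_qCoeff_heckeT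
import Fermat.Prelude.Thm_ModularFormClass_qCoeff_heckeU

/-!
# Integral cusp forms at any level as `MazurStep.Forms`

A `ℤ`-basis of the integral weight two cusp forms of level `N` has independent reductions modulo
every prime, and satisfies the residue identity on `qbarCurve`. The Hecke operators act on its
coefficients through integral matrices.
-/

set_option autoImplicit false

noncomputable section

open AlgebraicCurve ModularCurve
open scoped MatrixGroups

namespace Fermat.Agent.OrdinaryP

local notation "Qb" => AlgebraicClosure ℚ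
local notation "S2" N => CuspForm (CongruenceSubgroup.Gamma0 N) 2

variable (N : ℕ) [NeZero N]

/-- The coefficients of a cusp form, linearly. -/
def coeffs : (S2 N) →ₗ[ℂ] (ℕ → ℂ) := MFCore.qCoeffMap N 2

theorem coeffs_apply (f : S2 N) (n : ℕ) : coeffs N f n = ModularFormClass.qCoeff f n := rfl

theorem coeffs_injective : Function.Injective (coeffs N) := MFCore.qCoeffMap_injective

theorem exists_int_of_mem {f : S2 N} (hf : f ∈ CuspForm.intLattice N 2) (n : ℕ) :
    ∃ m : ℤ, coeffs N f n = (m : ℂ) := by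
  induction hf using Submodule.span_induction with
  | mem x hx => exact hx n
  | zero => exact ⟨0, by simp⟩
  | add x y _ _ hx hy =>
    obtain ⟨a, ha⟩ := hx
    obtain ⟨b, hb⟩ := hy
    exact ⟨a + b, by rw [map_add, Pi.add_apply, ha, hb, Int.cast_add]⟩
  | smul c x _ hx =>
    obtain ⟨a, ha⟩ := hx
    exact ⟨c * a, by rw [map_zsmul, Pi.smul_apply, ha, zsmul_eq_mul, Int.cast_mul]⟩

theorem coeffs_zero (f : S2 N) : coeffs N f 0 = 0 :=
  CuspFormClass.qExpansion_coeff_zero f one_pos (CongruenceSubgroup.one_mem_strictPeriods_Gamma0 N)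

/-- A `ℤ`-basis of the integral cusp forms, with its integral coefficients. -/
structure IntBasis where
  /-- the number of forms -/
  rank : ℕ
  /-- the forms -/
  form : Fin rank → S2 N
  /-- the coefficients -/
  coef : Fin rank → ℕ → ℤ
  coeffs_form : ∀ i n, coeffs N (form i) n = (coef i n : ℂ)
  form_mem : ∀ i, form i ∈ CuspForm.intLattice N 2
  repr : ∀ f ∈ CuspForm.intLattice N 2, ∃ z : Fin rank → ℤ, f = ∑ i, z i • form i
  indep : ∀ z : Fin rank → ℤ, ∑ i, z i • form i = 0 → z = 0

theorem exists_intBasis : Nonempty (IntBasis N) := by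
  classical
  have : Module.Finite ℤ ↥(CuspForm.intLattice N 2) :=
    Module.Finite.iff_fg.mpr (CuspForm.intLattice_fg N 2)
  have : Module.IsTorsionFree ℂ (S2 N) := inferInstance
  have : IsAddTorsionFree (S2 N) := ⟨fun n hn a b (hab : n • a = n • b) => by
    have h1 : (n : ℂ) • (a - b) = 0 := by
      rw [Nat.cast_smul_eq_nsmul, nsmul_sub]
      exact sub_eq_zero.2 hab
    exact sub_eq_zero.1 ((smul_eq_zero.1 h1).resolve_left (Nat.cast_ne_zero.2 hn))⟩
  have : Module.Free ℤ ↥(CuspForm.intLattice N 2) := inferInstance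
  let b := Module.finBasis ℤ ↥(CuspForm.intLattice N 2)
  choose c hc using fun i n => exists_int_of_mem N (b i).2 n
  refine ⟨⟨_, fun i => (b i).1, c, hc, fun i => (b i).2, fun f hf => ⟨b.repr ⟨f, hf⟩, ?_⟩,
    fun z hz => ?_⟩⟩
  · have h := congrArg (fun x : ↥(CuspForm.intLattice N 2) => (x : S2 N)) (b.sum_repr ⟨f, hf⟩)
    simp only [Submodule.coe_sum, Submodule.coe_smul] at h
    exact h.symm
  · have h : ∑ i, z i • b i = 0 := Subtype.ext (by simpa using hz)
    exact funext (Fintype.linearIndependent_iff.1 b.linearIndependent z h)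

variable {N}

theorem IntBasis.coeffs_sum (B : IntBasis N) (z : Fin B.rank → ℤ) (n : ℕ) :
    coeffs N (∑ i, z i • B.form i) n = ((∑ i, z i * B.coef i n : ℤ) : ℂ) := by
  rw [map_sum, Finset.sum_apply, Int.cast_sum]
  exact Finset.sum_congr rfl fun i _ => by
    rw [map_zsmul, Pi.smul_apply, B.coeffs_form, zsmul_eq_mul, Int.cast_mul]

/-- A relation over any field gives a relation over a subfield with the same nonzero entry. -/
theorem exists_relation {r : ℕ} {F k : Type*} [Field F] [Field k] [Algebra F k] {a : Fin r → ℕ → ℤ}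
    (h : ¬ LinearIndependent k fun i => fun n => (a i n : k)) :
    ∃ c : Fin r → F, c ≠ 0 ∧ ∀ n, ∑ i, c i * (a i n : F) = 0 := by
  obtain ⟨g, hg, j, hj⟩ := Fintype.not_linearIndependent_iff.1 h
  obtain ⟨φ, hφ⟩ := Module.Projective.exists_dual_ne_zero F hj
  refine ⟨fun i => φ (g i), fun h0 => hφ (congrFun h0 j), fun n => ?_⟩
  have h1 := congrArg φ (congrFun hg n)
  rw [Finset.sum_apply, map_sum, Pi.zero_apply, map_zero] at h1
  rw [← h1]
  refine Finset.sum_congr rfl fun i _ => ?_
  rw [Pi.smul_apply, smul_eq_mul, mul_comm (g i), mul_comm (φ (g i)), ← zsmul_eq_mul,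
    ← zsmul_eq_mul, map_zsmul]

/-- The coefficient vectors stay independent modulo every prime. -/
theorem IntBasis.linearIndependent_mod (B : IntBasis N) (ℓ : ℕ) [Fact ℓ.Prime] (k : Type*) [Field k]
    [CharP k ℓ] : LinearIndependent k fun i => fun n => (B.coef i n : k) := by
  classical
  let := ZMod.algebra k ℓ
  by_contra h
  obtain ⟨c, hc, hrel⟩ := exists_relation (F := ZMod ℓ) h
  choose z hz using fun i => ZMod.intCast_surjective (c i)
  have hdvd : ∀ n, (ℓ : ℤ) ∣ ∑ i, z i * B.coef i n := fun n => by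
    rw [← ZMod.intCast_zmod_eq_zero_iff_dvd, Int.cast_sum]
    simp only [Int.cast_mul, hz]
    exact hrel n
  choose m hm using hdvd
  set f : S2 N := (ℓ : ℂ)⁻¹ • ∑ i, z i • B.form i with hf
  have hℓ : (ℓ : ℂ) ≠ 0 := Nat.cast_ne_zero.2 (Fact.out (p := ℓ.Prime)).ne_zero
  have hfmem : f ∈ CuspForm.intLattice N 2 := Submodule.subset_span fun n => ⟨m n, by
    rw [← coeffs_apply, hf, map_smul, Pi.smul_apply, B.coeffs_sum, hm, Int.cast_mul,
      Int.cast_natCast, smul_eq_mul, inv_mul_cancel_left₀ hℓ]⟩
  obtain ⟨w, hw⟩ := B.repr f hfmem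
  have h0 := B.indep (fun i => z i - (ℓ : ℤ) * w i) (by
    simp only [sub_smul, Finset.sum_sub_distrib, mul_smul, ← Finset.smul_sum, ← hw]
    rw [sub_eq_zero, ← Int.cast_smul_eq_zsmul ℂ (ℓ : ℤ) f, hf, Int.cast_natCast,
      smul_inv_smul₀ hℓ])
  refine hc (funext fun i => ?_)
  rw [← hz i, show z i = (ℓ : ℤ) * w i from sub_eq_zero.1 (congrFun h0 i), Int.cast_mul,
    Int.cast_natCast, ZMod.natCast_self, zero_mul]
  rfl

/-- The basis is a basis of the space of cusp forms. -/
theorem IntBasis.rank_eq (B : IntBasis N) : B.rank = Module.finrank ℂ (S2 N) := by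
  classical
  have := MFCore.finiteDimensional_cuspForm_Gamma0 N 2
  have hspan : Submodule.span ℂ (Set.range B.form) = ⊤ := by
    refine eq_top_iff.2 ((MFCore.hasIntegralStructure N 2).ge.trans (Submodule.span_le.2 ?_))
    intro f hf
    obtain ⟨z, rfl⟩ := B.repr f hf
    exact Submodule.sum_mem _ fun i _ =>
      Submodule.smul_of_tower_mem _ (z i) (Submodule.subset_span ⟨i, rfl⟩)
  refine le_antisymm ?_ ?_
  · have hli : LinearIndependent ℂ fun i => fun n => (B.coef i n : ℂ) := by
      by_contra h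
      obtain ⟨c, hc, hrel⟩ := exists_relation (F := ℚ) h
      -- clear the denominators
      obtain ⟨D, hD0, hD⟩ : ∃ D : ℤ, D ≠ 0 ∧ ∀ i, ∃ z : ℤ, (D : ℚ) * c i = z := by
        refine ⟨∏ i, ((c i).den : ℤ), Finset.prod_ne_zero_iff.2 fun i _ => by simp, fun i => ?_⟩
        refine ⟨(∏ j ∈ Finset.univ.erase i, ((c j).den : ℤ)) * (c i).num, ?_⟩
        rw [← Finset.mul_prod_erase _ _ (Finset.mem_univ i)]
        push_cast
        rw [mul_comm ((c i).den : ℚ), mul_assoc, mul_comm ((c i).den : ℚ), Rat.mul_den_eq_num]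
      choose z hz using hD
      have hz0 := B.indep z (coeffs_injective N (funext fun n => by
        rw [map_zero, Pi.zero_apply, B.coeffs_sum, Int.cast_eq_zero]
        apply Int.cast_injective (α := ℚ)
        push_cast
        simp only [← hz, mul_assoc, ← Finset.mul_sum, hrel n, mul_zero]))
      refine hc (funext fun i => ?_)
      have := hz i
      rw [congrFun hz0 i, Pi.zero_apply, Int.cast_zero, mul_eq_zero, Int.cast_eq_zero] at this
      exact this.resolve_left hD0
    have hform : LinearIndependent ℂ B.form := LinearIndependent.of_comp (coeffs N) (by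
      convert hli using 1
      funext i n
      exact B.coeffs_form i n)
    simpa using hform.fintype_card_le_finrank
  · rw [← finrank_top ℂ (S2 N), ← hspan]
    exact (finrank_range_le_card B.form).trans_eq (Fintype.card_fin _)

/-- Forms in the lattice have coefficients combined from the basis. -/
theorem IntBasis.exists_matrix (B : IntBasis N) (g : Fin B.rank → S2 N)
    (hg : ∀ i, g i ∈ CuspForm.intLattice N 2) :
    ∃ M : Matrix (Fin B.rank) (Fin B.rank) ℤ,
      ∀ i n, coeffs N (g i) n = ((∑ j, M i j * B.coef j n : ℤ) : ℂ) := by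
  choose M hM using fun i => B.repr (g i) (hg i)
  exact ⟨Matrix.of M, fun i n => by
    conv_lhs => rw [hM i]
    exact B.coeffs_sum _ _⟩

/-- The coefficients of `T_q`. -/
def heckeCoef (N q : ℕ) (a : ℕ → ℤ) (n : ℕ) : ℤ :=
  a (n * q) + if ¬ q ∣ N ∧ q ∣ n then (q : ℤ) * a (n / q) else 0

/-- **Hecke operators act through integral matrices.** -/
theorem IntBasis.exists_heckeMatrix (B : IntBasis N) {q : ℕ} (hq : q.Prime) :
    ∃ M : Matrix (Fin B.rank) (Fin B.rank) ℤ,
      ∀ i n, heckeCoef N q (B.coef i) n = ∑ j, M i j * B.coef j n := by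
  classical
  have hper : (1 : ℝ) ∈ (CongruenceSubgroup.Gamma0 N : Subgroup (GL (Fin 2) ℝ)).strictPeriods :=
    CongruenceSubgroup.one_mem_strictPeriods_Gamma0 N
  by_cases hqN : q ∣ N
  · obtain ⟨M, hM⟩ := B.exists_matrix (fun i => CuspForm.heckeULin 2 hqN (B.form i))
      fun i => CuspForm.mem_intLattice_of_coe_eq_heckeU hq.ne_zero
        (CuspForm.coe_heckeULin_apply 2 hqN _) (B.form_mem i)
    refine ⟨M, fun i n => Int.cast_injective (α := ℂ) ?_⟩
    rw [← hM i n, heckeCoef, if_neg (fun h => h.1 hqN), add_zero, coeffs_apply,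
      CuspForm.coe_heckeULin_apply, ModularFormClass.qCoeff_heckeU (B.form i) hper hq.ne_zero,
      ModularForm.coeffHeckeU_apply, ← coeffs_apply, B.coeffs_form]
  · obtain ⟨M, hM⟩ := B.exists_matrix (fun i => CuspForm.heckeTLin 2 hq hqN (B.form i))
      fun i => CuspForm.mem_intLattice_of_coe_eq_heckeT (by norm_num) hq.ne_zero
        (CuspForm.coe_heckeTLin_apply 2 hq hqN _) (B.form_mem i)
    refine ⟨M, fun i n => Int.cast_injective (α := ℂ) ?_⟩
    rw [← hM i n, coeffs_apply, CuspForm.coe_heckeTLin_apply,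
      ModularFormClass.qCoeff_heckeT (B.form i) hper hq.ne_zero, ModularForm.coeffHeckeT_apply,
      heckeCoef]
    simp only [← coeffs_apply, B.coeffs_form]
    split_ifs <;> first | (push_cast; norm_num; done) | (exfalso; tauto)

/-- The genus of the modular function field is the dimension of the space of cusp forms. -/
theorem riemannGenus_bar_eq_finrank :
      FF.riemannGenus Qb (modularFunctionFieldBar N) = Module.finrank ℂ (S2 N) := by
  have : NeZero (2 : ℕ) := ⟨two_ne_zero⟩
  have h1 := Kummer.natCard_torsion N 2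
  have h2 := CurveTorsion.natCard_torsion (K := Qb) (F := modularFunctionFieldBar N) 2 two_ne_zero
  have h3 : 2 * genusFF Qb (modularFunctionFieldBar N) = Cosets.homRank N :=
    Nat.pow_right_injective le_rfl (h2.symm.trans h1)
  have h4 := Cosets.homRank_eq N
  rw [← S20.result N, ← h3] at h4
  rw [← FF.natCast_genusFF_eq_riemannGenus, Nat.cast_inj]
  exact_mod_cast (mul_left_cancel₀ (two_ne_zero : (2 : ℚ) ≠ 0) (by exact_mod_cast h4) :
    (genusFF Qb (modularFunctionFieldBar N) : ℚ) = Module.finrank ℂ (S2 N))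

section Level

open Reduction MazurStep

variable {A : ValuationSubring Qb} {ℓ : ℕ} [Fact ℓ.Prime] (hA : A.LiesOverPrime ℓ) (hℓN : ¬ ℓ ∣ N)

theorem IntBasis.rank_eq_g (B : IntBasis N) :
    B.rank = (Level.qbarCurve A hA N hℓN).g := by
  have key : ∀ E : IntermediateField Qb (LaurentSeries Qb), E = modularFunctionFieldBar N →
      ∀ [FF.IsFunctionField Qb E], FF.riemannGenus Qb E = Module.finrank ℂ (S2 N) := by
    rintro E rfl _
    exact riemannGenus_bar_eq_finrank
  have := Gal.isAlgClosed_residueField A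
  have := Level.isFunctionField_level (k := Qb) (N := N) (Nat.cast_ne_zero.2 (NeZero.ne N))
  have h := key _ (Level.modularFunctionFieldBar_eq_fullC N).symm
  rw [B.rank_eq, ← Int.natCast_inj]
  exact h.symm.trans (Level.levelCurve_g _ _ _ _).symm

/-- The residue identity on `qbarCurve`. -/
theorem residue_qbarCurve (n : ℤ) (y : LaurentSeries Qb)
    (hy : y ∈ (Level.qbarCurve A hA N hℓN).space ((Level.qbarCurve A hA N hℓN).atPt n))
    (f : S2 N) (a : ℕ → ℤ) (ha : ∀ n, coeffs N f n = (a n : ℂ)) :
    (y * intSer Qb a).coeff 0 = 0 := by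
  have key : ∀ (E : IntermediateField Qb (LaurentSeries Qb)), E = MFGenus.FL Qb N →
      ∀ (vp : Place Qb E), (∀ g : E, vp.ord g = (g : LaurentSeries Qb).order) → ∀ (u : E),
      (∀ v : Place Qb E, v ≠ vp → 0 ≤ v.ord u) →
      (coeffMap Kummer.ιbar (u : LaurentSeries Qb) *
        HahnSeries.ofPowerSeries ℤ ℂ (UpperHalfPlane.qExpansion 1 f)).coeff 0 = 0 := by
    rintro E rfl vp hvp u hu
    exact coeff_mul_qExpansion_eq_zero Kummer.ιbar hvp hu f
  set S := Level.qbarCurve A hA N hℓN
  obtain ⟨u, rfl, hu⟩ := S.exists_regular_of_mem_space (S.offNonpos_atPt n) hy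
  have h := key S.F (Level.modularFunctionFieldBar_eq_fullC N).symm S.pt S.ord_pt u hu
  refine (map_eq_zero Kummer.ιbar).1 ?_
  rw [show Kummer.ιbar (((u : LaurentSeries Qb) * intSer Qb a).coeff 0) =
    (coeffMap Kummer.ιbar ((u : LaurentSeries Qb) * intSer Qb a)).coeff 0 from rfl, map_mul,
    show coeffMap Kummer.ιbar (intSer Qb a) =
      HahnSeries.ofPowerSeries ℤ ℂ (UpperHalfPlane.qExpansion 1 f) from ?_, h]
  ext i
  rw [coeffMap_coeff]
  rcases lt_or_ge i 0 with hi | hi
  · rw [intSer_coeff_of_neg _ hi, map_zero, ofPowerSeries_coeff_of_neg _ hi]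
  · lift i to ℕ using hi
    rw [intSer_coeff_natCast, map_intCast, HahnSeries.ofPowerSeries_apply_coeff]
    exact (ha i).symm

/-- **The forms of level `N` on `qbarCurve`.** -/
def IntBasis.toForms (B : IntBasis N) : Forms (Level.qbarCurve A hA N hℓN) where
  coef i := B.coef (finCongr (B.rank_eq_g hA hℓN).symm i)
  coef_zero i := Int.cast_injective (α := ℂ) (by
    rw [Int.cast_zero, ← B.coeffs_form]
    exact coeffs_zero N _)
  indep := by
    have := Gal.charP_residueField A (Fact.out (p := ℓ.Prime)) hA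
    exact (B.linearIndependent_mod ℓ (IsLocalRing.ResidueField A)).comp _ (finCongr _).injective
  residue n y hy i := residue_qbarCurve hA hℓN n y hy (B.form _) _ (B.coeffs_form _)

/-- The chosen forms of level `N`. -/
def levelForms : Forms (Level.qbarCurve A hA N hℓN) :=
  (exists_intBasis N).some.toForms hA hℓN

/-- **Hecke operators on the chosen forms.** -/
theorem exists_heckeMatrix_levelForms {q : ℕ} (hq : q.Prime) :
    ∃ M : Matrix (Fin (Level.qbarCurve A hA N hℓN).g) (Fin (Level.qbarCurve A hA N hℓN).g) ℤ,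
      ∀ i n, heckeCoef N q ((levelForms hA hℓN).coef i) n =
        ∑ j, M i j * (levelForms hA hℓN).coef j n := by
  classical
  set B := (exists_intBasis N).some
  obtain ⟨M, hM⟩ := B.exists_heckeMatrix hq
  refine ⟨M.submatrix (finCongr (B.rank_eq_g hA hℓN).symm) (finCongr (B.rank_eq_g hA hℓN).symm),
    fun i n => (hM _ n).trans ?_⟩
  exact (Fintype.sum_equiv (finCongr (B.rank_eq_g hA hℓN).symm) _ _ fun j => rfl).symm

end Level

end Fermat.Agent.OrdinaryP
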