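import Fermat.Agent.OrdinaryP.Line

/-!
# The shape at `p` of an ordinary eigensystem

For an eigensystem with unit eigenvalue at an odd `p` the decomposition group acts on the lattice as
an extension of an unramified character, a unit root of `X² - a_p X + p` at Frobenius elements.
-/

set_option autoImplicit false

noncomputable section

open IsLocalRing Matrix CuspForm Fermat.Agent.GalRep
open scoped Pointwise

namespace Fermat.Agent.OrdinaryP

local notation "Qb" => AlgebraicClosure ℚ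
local notation "Γℚ" => AlgebraicClosure ℚ ≃ₐ[ℚ] AlgebraicClosure ℚ

/-- Two is a unit where an odd prime is in the maximal ideal. -/
theorem isUnit_two_of_mem {R : Type*} [CommRing R] [IsLocalRing R] {p : ℕ} (hp : p.Prime)
    (hp2 : p ≠ 2) (hpR : (p : R) ∈ maximalIdeal R) : IsUnit (2 : R) := by
  by_contra h2
  obtain ⟨m, hm⟩ := hp.odd_of_ne_two hp2
  rw [hm] at hpR
  push_cast at hpR
  have := sub_mem hpR (Ideal.mul_mem_right (m : R) _ ((mem_maximalIdeal _).mpr h2))
  rw [add_sub_cancel_left] at this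
  exact (mem_maximalIdeal _).mp this isUnit_one

/-- An element of inertia at `p` acts on `p`-th roots of unity by `-1`. -/
theorem exists_inertia_neg_one {p : ℕ} [hp : Fact p.Prime] {A : ValuationSubring Qb}
    (hA : A.LiesOverPrime p) :
    ∃ σ ∈ A.inertiaSubgroupIn ℚ, ∀ μ : Qb, μ ^ p = 1 → σ μ = μ ^ (p - 1) := by
  have : NeZero p := ⟨hp.out.ne_zero⟩
  obtain ⟨σ, hσ, hσc⟩ := Root.ClassField.exists_inertia_cycloChar_eq p hA (-1 : (ZMod p)ˣ)
  refine ⟨σ, hσ, fun μ hμ => ?_⟩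
  obtain ⟨i, -, rfl⟩ := (Root.ClassField.rootQ_spec p).eq_pow_of_pow_eq_one hμ
  rw [map_pow, ← Root.ClassField.cycloChar_spec, hσc, Units.val_neg, Units.val_one, ZMod.neg_val,
    if_neg one_ne_zero, ZMod.val_one, ← pow_mul, ← pow_mul, mul_comm]

variable {p : ℕ} [hp : Fact p.Prime] {A : ValuationSubring Qb} (hA : A.LiesOverPrime p) (N : ℕ)
  [NeZero N] (hpN : ¬ p ∣ N)
  {O : Type} [CommRing O] [IsDomain O] [IsDiscreteValuationRing O]
  [IsAdicComplete (maximalIdeal O) O] [CharZero O] {hpO : (p : O) ∈ maximalIdeal O}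
  {κ : heckeAlgebra N 2 ∅ →+* O}

omit [CharZero O] in
include hA hpN in
/-- **The ordinary shape.** -/
theorem EigenRep.exists_shape (hp2 : p ≠ 2) (E : EigenRep N p hpO κ)
    (hu : IsUnit (κ (heckeOp N ⟨p, hp.out⟩))) :
    ∃ s : A.decompositionSubgroup ℚ →* O,
      (∀ g : A.decompositionSubgroup ℚ, (g : Γℚ) ∈ A.inertiaSubgroupIn ℚ → s g = 1) ∧
      (∀ g : A.decompositionSubgroup ℚ, A.IsFrobeniusAt (g : Γℚ) p → IsUnit (s g) ∧
        s g ^ 2 - κ (heckeOp N ⟨p, hp.out⟩) * s g + (p : O) = 0) ∧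
      ∀ g h : A.decompositionSubgroup ℚ,
        (E.R g - ((E.R g).det * s g⁻¹) • 1) * (E.R h - s h • 1) = 0 := by
  obtain ⟨σ, hσ, hc⟩ := exists_inertia_neg_one hA
  have hmem : ∀ z w : O, IsUnit z → w - z ∈ maximalIdeal O → IsUnit w := fun z w hz hw => by
    by_contra hw'
    have := sub_mem (show w ∈ maximalIdeal O from (mem_maximalIdeal _).mpr hw') hw
    rw [sub_sub_cancel] at this
    exact (mem_maximalIdeal _).mp this hz
  have hp1 : ((p - 1 : ℕ) : O) - (-1) ∈ maximalIdeal O := by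
    rw [sub_neg_eq_add, show ((p - 1 : ℕ) : O) + 1 = ((p - 1 + 1 : ℕ) : O) from
      (Nat.cast_succ _).symm, Nat.sub_add_cancel hp.out.one_le]
    exact hpO
  have hdet : (E.R σ).det - ((p - 1 : ℕ) : O) ∈ maximalIdeal O := by
    rw [E.det_eq, ← map_natCast (padicHom p O hpO), ← map_sub]
    have h := padicHom_mem_pow p O hpO (n := 1) (x := cycl p σ - ((p - 1 : ℕ) : ℤ_[p])) (by
      rw [map_sub, map_natCast, toZModPow_cycl p σ 1 (p - 1) (by simpa using hc), sub_self])
    rwa [pow_one] at h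
  exact exists_char (A.decompositionSubgroup ℚ) (A.inertiaSubgroupIn ℚ)
    (fun g hg τ hτ => by
      have h := (Gal.mem_inertia_smul_iff g τ A).mpr hτ
      rwa [MulAction.mem_stabilizer_iff.mp hg] at h)
    E.R (fun φ => A.IsFrobeniusAt φ p) (a := κ (heckeOp N ⟨p, hp.out⟩)) (b := (p : O)) hσ
    (c := p - 1) (hmem (-1) _ isUnit_one.neg hp1)
    (hmem 2 _ (isUnit_two_of_mem hp.out hp2 hpO) (by
      rw [show (1 : O) - ((p - 1 : ℕ) : O) - 2 = -(((p - 1 : ℕ) : O) - (-1)) by ring]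
      exact neg_mem hp1))
    hdet (fun τ hτ n => (E.ordinary hA N hpN hu hσ hc n).1 τ hτ)
    (fun φ hφ n => (E.ordinary hA N hpN hu hσ hc n).2 φ hφ)

end Fermat.Agent.OrdinaryP
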