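import Fermat.Agent.OrdinaryP.HeckeDiv
import Fermat.Agent.Kummer.NormSeries
import Fermat.Agent.MazurStep.HeckeLift

/-!
# `T_q` on a reduced curve with the function field of level `N`

The divisor classes of such a curve are those of `J₀(N)`, and for every prime `q` prime to `N` (the
residue characteristic included) `T_q` is a norm lift there (`exists_normLift_of_eq`).
-/

set_option autoImplicit false

noncomputable section

open AlgebraicCurve ModularCurve
open Fermat.Agent.Reduction Fermat.Agent.MazurStep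

namespace Fermat.Agent.OrdinaryP

local notation "Qb" => AlgebraicClosure ℚ
local notation "Γℚ" => AlgebraicClosure ℚ ≃ₐ[ℚ] AlgebraicClosure ℚ

section Generic

variable {N : ℕ} [NeZero N] {F' : IntermediateField Qb (LaurentSeries Qb)}

/-- The classes of `J₀(N)` on an equal field. -/
def transportPic (hF : modularFunctionFieldBar N = F') : JZero N ≃+ Pic0 Qb F' := by
  subst hF
  exact AddEquiv.refl _

/-- `T_q` on divisors and classes of an equal field. -/
theorem exists_heckeOp (hF : modularFunctionFieldBar N = F') {q : ℕ} [hq : Fact q.Prime]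
    (hqN : ¬ q ∣ N) :
    haveI : NeZero q := ⟨hq.out.ne_zero⟩
    ∃ (T : Divisor Qb F' →+ Divisor Qb F') (op : Pic0 Qb F' →+ Pic0 Qb F'),
      (∀ E, (∀ v, 0 ≤ E v) → ∀ v, 0 ≤ T E v) ∧
      (∀ v : Place Qb F', (∀ u : F', v.ord u = (u : LaurentSeries Qb).order) →
        T (Finsupp.single v 1) = Finsupp.single v ((q : ℤ) + 1)) ∧
      (∀ E, Divisor.degree (T E) = ((q : ℤ) + 1) * Divisor.degree E) ∧
      (∀ u : F', u ≠ 0 → ∃ u' : F', u' ≠ 0 ∧
        (u' : LaurentSeries Qb) = heckeSer q (u : LaurentSeries Qb) ∧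
        ∀ E : Divisor Qb F', (∀ v, E v = v.ord u) → ∀ v, T E v = v.ord u') ∧
      (∀ (D D' : Divisor.degZero (K := Qb) (F := F')),
        (D' : Divisor Qb F') = T (D : Divisor Qb F') → op (Pic0.mk D) = Pic0.mk D') ∧
      ∀ x : JZero N,
        op (transportPic hF x) = transportPic hF (heckeOperatorBar N ⟨q, hq.out⟩ x) := by
  subst hF
  have : NeZero q := ⟨hq.out.ne_zero⟩
  obtain ⟨w⟩ := Semistable.ALData.exists_of_coprime hq.out hqN
  set α := heckeAlphaBar Qb N q
  set β := heckeBetaBar Qb N q
  have hFI := FF.fundamentalIdentityAlong β (FF.isIntegralAlong _)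
  have hfin : FiniteAlong Qb α := FF.finiteAlong α
  have hN := FF.normFormulaAlong α hfin
  refine ⟨heckeDiv N q, heckeOperatorAlong Qb N q, fun E hE v => heckeDiv_nonneg N q hE v,
    fun v hv => ?_, degree_heckeDiv hq.out hqN, fun u hu => ?_, fun D D' h => ?_, fun x => ?_⟩
  · rw [Semistable.place_eq_of_ord (v := Semistable.cuspInf N)
      fun f => (hv f).trans (Semistable.ord_cuspInf N f).symm]
    exact heckeDiv_cuspInf hq.out w hqN
  · obtain ⟨u', hu', hs, hT⟩ := Kummer.exists_norm_lift hqN hu
    exact ⟨u', hu', hs, fun E hE => hT _ _ E hE⟩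
  · rw [heckeOperatorAlong_eq (FF.isIntegralAlong _) (FF.isIntegralAlong _) hFI hfin hN]
    refine (Pic0.correspondence_mk _ _ _ _ hFI hfin hN D).trans (congrArg Pic0.mk (Subtype.ext ?_))
    exact h.symm
  · exact (heckeOperatorBar_apply N ⟨q, hq.out⟩ x).symm

end Generic

section Curve

variable {N : ℕ} [NeZero N] {k : Type*} [Field k] {A : ValuationSubring Qb} {π : A →+* k}
  (S : CurveRed A π)

/-- The classes of `J₀(N)` on a curve with the same field. -/
def curvePic (hF : modularFunctionFieldBar N = S.F) : JZero N ≃+ Pic0 Qb S.F := transportPic hF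

/-- `T_q` is a norm lift on a curve with the field of level `N`. -/
theorem exists_normLift_of_eq (hF : modularFunctionFieldBar N = S.F) {q : ℕ} [hq : Fact q.Prime]
    (hqN : ¬ q ∣ N) :
    haveI : NeZero q := ⟨hq.out.ne_zero⟩
    ∃ L : NormLift S q, ∀ x : JZero N,
      L.op (curvePic S hF x) = curvePic S hF (heckeOperatorBar N ⟨q, hq.out⟩ x) := by
  have : NeZero q := ⟨hq.out.ne_zero⟩
  obtain ⟨T, op, heff, hpt, hdeg, hlift, hmk, hop⟩ := exists_heckeOp hF hqN
  refine ⟨{ T := T
            op := op
            isEff := heff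
            map_pt := hpt S.pt S.ord_pt
            degree := hdeg
            lift := fun u hu => ?_
            op_mk := fun D => hmk D _ rfl }, hop⟩
  obtain ⟨u', hu', hs, hT⟩ := hlift u hu
  exact ⟨u', hs, fdiv_eq hu' (hT (fdiv u) fun v => fdiv_apply hu v)⟩

end Curve

end Fermat.Agent.OrdinaryP
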