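import Fermat.Agent.Semistable.Cusps
import Fermat.Agent.FF.ModularField
import Fermat.Prelude.Def_ModularCurve_HeckeOperatorTotal

/-!
# The Hecke correspondence on divisors

For `q` prime to `N` the correspondence `T_q` sends the cusp `∞` to `q + 1` times itself and
multiplies degrees by `q + 1`.
-/

set_option autoImplicit false

noncomputable section

open AlgebraicCurve ModularCurve Fermat.Agent.Semistable

namespace Fermat.Agent.OrdinaryP

local notation "Qb" => AlgebraicClosure ℚ

variable (N q : ℕ) [NeZero N] [NeZero q]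

/-- The correspondence `T_q` on divisors. -/
def heckeDiv : Divisor Qb (modularFunctionFieldBar N) →+ Divisor Qb (modularFunctionFieldBar N) :=
  Divisor.correspondence (heckeBetaBar Qb N q) (heckeAlphaBar Qb N q)
    (FF.isIntegralAlong _) (FF.isIntegralAlong _)

theorem heckeDiv_single_apply (v : Place Qb (modularFunctionFieldBar N)) (n : ℤ) :
    heckeDiv N q (Finsupp.single v n) =
      Divisor.pushforwardAlong (heckeAlphaBar Qb N q) (FF.isIntegralAlong _)
        (Divisor.pullbackAlong (heckeBetaBar Qb N q) (FF.isIntegralAlong _) (Finsupp.single v n)) :=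
  Divisor.correspondence_apply _ _ _ _ _

theorem heckeDiv_nonneg {E : Divisor Qb (modularFunctionFieldBar N)} (hE : ∀ v, 0 ≤ E v)
    (v : Place Qb (modularFunctionFieldBar N)) : 0 ≤ heckeDiv N q E v := by
  classical
  rw [heckeDiv, Divisor.correspondence_apply]
  set P := Divisor.pullbackAlong (heckeBetaBar Qb N q) (FF.isIntegralAlong _) E with hP
  have hP0 : ∀ w, 0 ≤ P w := fun w => by
    rw [hP, Divisor.pullbackAlong_apply]
    exact mul_nonneg (Int.natCast_nonneg _) (hE _)
  conv => rw [← Finsupp.sum_single P, map_finsuppSum]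
  rw [Finsupp.sum_apply]
  refine Finset.sum_nonneg fun w _ => ?_
  dsimp only
  rw [Divisor.pushforwardAlong_single]
  rcases eq_or_ne (w.restrictAlong (heckeAlphaBar Qb N q) (FF.isIntegralAlong _)) v with h | h
  · rw [h, Finsupp.single_eq_same]
    exact mul_nonneg (hP0 w) (Int.natCast_nonneg _)
  · rw [Finsupp.single_eq_of_ne (Ne.symm h)]

variable {N q}

/-- A single place pushed along `α` keeps its multiplicity. -/
theorem pushforwardAlong_alpha_single (w : Place Qb (modularFunctionFieldBar (N * q))) (n : ℤ) :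
    Divisor.pushforwardAlong (heckeAlphaBar Qb N q) (FF.isIntegralAlong _) (Finsupp.single w n) =
      Finsupp.single (w.restrictAlong (heckeAlphaBar Qb N q) (FF.isIntegralAlong _)) n := by
  rw [Divisor.pushforwardAlong_single]
  have h := Divisor.degree_pushforwardAlong (heckeAlphaBar Qb N q) (FF.isIntegralAlong _)
    (Finsupp.single w (1 : ℤ))
  rw [Divisor.pushforwardAlong_single, Divisor.degree_single, Divisor.degree_single,
    FF.deg_eq_one, FF.deg_eq_one, Nat.cast_one, mul_one, mul_one, one_mul] at h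
  rw [h, mul_one]

theorem mem_restrictAlong_iff {K F F' : Type*} [Field K] [Field F] [Field F'] [Algebra K F]
    [Algebra K F'] (φ : F →ₐ[K] F') (hφ : φ.toRingHom.IsIntegral) (v : Place K F') (y : F) :
    y ∈ (v.restrictAlong φ hφ).toValuationSubring ↔ φ y ∈ v.toValuationSubring := by
  let := algebraAlong φ
  have := isScalarTower_along φ
  have := isIntegral_along φ hφ
  exact Place.mem_restrict_iff (w := v) (f := y)

omit [NeZero q] in
/-- The restriction and ramification of a place with proportional orders. -/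
theorem restrictAlong_eq_cuspInf
    (φ : modularFunctionFieldBar N →ₐ[Qb] modularFunctionFieldBar (N * q))
    (hφ : φ.toRingHom.IsIntegral) (v : Place Qb (modularFunctionFieldBar (N * q))) {c : ℤ}
    (hc : 0 < c) (hord : ∀ y, v.ord (φ y) = c * (cuspInf N).ord y) :
    v.restrictAlong φ hφ = cuspInf N ∧ (Place.ramificationIndexAlong φ v : ℤ) = c := by
  set j := MFGenus.jElt Qb N with hjdef
  have hj : (cuspInf N).ord j = -1 := (ord_cuspInf N j).trans (order_jElt N)
  have he := fun y => Place.ord_restrictAlong φ hφ v y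
  have h2 := he j
  rw [hord, hj] at h2
  have h0' : (0 : ℤ) < (Place.ramificationIndexAlong φ v : ℤ) := by
    rcases Nat.eq_zero_or_pos (Place.ramificationIndexAlong φ v) with h0 | h0
    · rw [h0, Nat.cast_zero, zero_mul] at h2; omega
    · exact_mod_cast h0
  have heq : v.restrictAlong φ hφ = cuspInf N := by
    refine Place.ext (SetLike.ext fun y => ?_)
    rcases eq_or_ne y 0 with rfl | hy
    · exact ⟨fun _ => zero_mem _, fun _ => zero_mem _⟩
    rw [MFGenus.mem_iff_ord_nonneg _ hy, MFGenus.mem_iff_ord_nonneg _ hy]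
    have h1 := he y
    rw [hord] at h1
    constructor <;> intro h
    · by_contra hlt
      push Not at hlt
      nlinarith
    · by_contra hlt
      push Not at hlt
      nlinarith
  refine ⟨heq, ?_⟩
  rw [heq, hj] at h2
  omega

theorem ord_cuspInf_beta (y : modularFunctionFieldBar N) :
    (cuspInf (N * q)).ord (heckeBetaBar Qb N q y) = (q : ℤ) * (cuspInf N).ord y := by
  rw [ord_cuspInf, ord_cuspInf, coe_heckeBetaBar, order_qExpand']

variable (hq : q.Prime) (w : ALData q N)

theorem ord_cuspZero_beta (y : modularFunctionFieldBar N) :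
    (cuspZero w hq).ord (heckeBetaBar Qb N q y) = (cuspInf N).ord y := by
  rw [ord_cuspZero, ord_cuspInf, wEquiv_heckeBetaBar, coe_heckeAlphaBar]

/-- Only the two cusps lie over `∞` along `β`. -/
theorem eq_cusp_of_restrict_beta (hqN : ¬ q ∣ N)
    (v : Place Qb (modularFunctionFieldBar (N * q)))
    (hv : v.restrictAlong (heckeBetaBar Qb N q) (FF.isIntegralAlong _) = cuspInf N) :
    v = cuspInf (N * q) ∨ v = cuspZero w hq := by
  set g := SemilinearAut.ofAlgAut (wEquiv w hq) with hg
  have hgu : ∀ u, g • u = wEquiv w hq u := fun u => SemilinearAut.ofAlgAut_smul _ u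
  obtain ⟨v', rfl⟩ : ∃ v', g • v' = v := ⟨g⁻¹ • v, smul_inv_smul g v⟩
  have hord : ∀ u, (g • v').ord (wEquiv w hq u) = v'.ord u := fun u => by
    rw [← hgu, SemilinearAut.ord_smul g v' u]
  have hv'α : v'.restrictAlong (heckeAlphaBar Qb N q) (FF.isIntegralAlong _) = cuspInf N := by
    refine (Place.ext (SetLike.ext fun y => ?_)).trans hv
    rw [mem_restrictAlong_iff, mem_restrictAlong_iff]
    rcases eq_or_ne y 0 with rfl | hy
    · rw [map_zero, map_zero]
      exact ⟨fun _ => zero_mem _, fun _ => zero_mem _⟩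
    rw [MFGenus.mem_iff_ord_nonneg _ ((map_ne_zero _).2 hy),
      MFGenus.mem_iff_ord_nonneg _ ((map_ne_zero _).2 hy), ← hord, wEquiv_heckeAlphaBar]
  rcases eq_cusp_of_restrict w hq hqN (FF.isIntegralAlong _) v' hv'α with h | h
  · refine Or.inr (place_eq_of_ord fun u => ?_)
    rw [← wEquiv_wEquiv w hq u, hord, h, ord_cuspInf, ord_cuspZero, wEquiv_wEquiv]
  · refine Or.inl (place_eq_of_ord fun u => ?_)
    rw [← wEquiv_wEquiv w hq u, hord, h, ord_cuspZero, ord_cuspInf]

/-- The pull-back of `∞` along `β`. -/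
theorem pullbackAlong_beta_cuspInf (hqN : ¬ q ∣ N) :
    Divisor.pullbackAlong (heckeBetaBar Qb N q) (FF.isIntegralAlong _)
      (Finsupp.single (cuspInf N) 1) =
      Finsupp.single (cuspInf (N * q)) (q : ℤ) + Finsupp.single (cuspZero w hq) 1 := by
  classical
  have hq0 : (0 : ℤ) < q := by exact_mod_cast hq.pos
  obtain ⟨ri, ei⟩ := restrictAlong_eq_cuspInf (heckeBetaBar Qb N q) (FF.isIntegralAlong _) _ hq0
    ord_cuspInf_beta
  obtain ⟨rz, ez⟩ := restrictAlong_eq_cuspInf (heckeBetaBar Qb N q) (FF.isIntegralAlong _) _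
    one_pos fun y => (ord_cuspZero_beta hq w y).trans (one_mul _).symm
  have hne := cuspInf_ne_cuspZero w hq
  refine Finsupp.ext fun v => ?_
  rw [Divisor.pullbackAlong_apply, Finsupp.add_apply]
  by_cases h1 : v = cuspInf (N * q)
  · subst h1
    rw [ri, ei, Finsupp.single_eq_same, Finsupp.single_eq_same, Finsupp.single_eq_of_ne hne,
      mul_one, add_zero]
  by_cases h2 : v = cuspZero w hq
  · subst h2
    rw [rz, ez, Finsupp.single_eq_same, Finsupp.single_eq_same,
      Finsupp.single_eq_of_ne hne.symm, mul_one, zero_add]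
  · rw [Finsupp.single_eq_of_ne h1, Finsupp.single_eq_of_ne h2,
      Finsupp.single_eq_of_ne fun h => (eq_cusp_of_restrict_beta hq w hqN v h).elim h1 h2,
      mul_zero, add_zero]

include hq w in
/-- **The image of the cusp `∞`.** -/
theorem heckeDiv_cuspInf (hqN : ¬ q ∣ N) :
    heckeDiv N q (Finsupp.single (cuspInf N) 1) = Finsupp.single (cuspInf N) ((q : ℤ) + 1) := by
  obtain ⟨si, -⟩ := restrictAlong_eq_cuspInf (heckeAlphaBar Qb N q) (FF.isIntegralAlong _)
    (cuspInf (N * q)) one_pos fun y => by rw [ord_cuspInf_alpha, ord_cuspInf N, one_mul]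
  obtain ⟨sz, -⟩ := restrictAlong_eq_cuspInf (heckeAlphaBar Qb N q) (FF.isIntegralAlong _)
    (cuspZero w hq) (by exact_mod_cast hq.pos : (0 : ℤ) < q)
    fun y => by rw [ord_cuspZero_alpha, ord_cuspInf N]
  rw [heckeDiv_single_apply, pullbackAlong_beta_cuspInf hq w hqN, map_add,
    pushforwardAlong_alpha_single, pushforwardAlong_alpha_single, si, sz, ← Finsupp.single_add]

omit w in
include hq in
/-- **The degree of `T_q`.** -/
theorem degree_heckeDiv (hqN : ¬ q ∣ N) (E : Divisor Qb (modularFunctionFieldBar N)) :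
    Divisor.degree (heckeDiv N q E) = ((q : ℤ) + 1) * Divisor.degree E := by
  obtain ⟨w⟩ := ALData.exists_of_coprime hq hqN
  have hFI := FF.fundamentalIdentityAlong (heckeBetaBar Qb N q) (FF.isIntegralAlong _)
  have h : ∀ D, Divisor.degree (heckeDiv N q D) =
      (finrankAlong Qb (heckeBetaBar Qb N q) : ℤ) * Divisor.degree D := fun D =>
    Divisor.degree_correspondence _ _ _ _ hFI D
  have h1 := h (Finsupp.single (cuspInf N) 1)
  rw [heckeDiv_cuspInf hq w hqN, Divisor.degree_single, Divisor.degree_single, FF.deg_eq_one,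
    Nat.cast_one, mul_one, one_mul, mul_one] at h1
  rw [h, ← h1]

end Fermat.Agent.OrdinaryP
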