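import Fermat.Agent.Periods.Primitive
import Fermat.Agent.LevelOne.JBijective
import Fermat.Agent.Kummer.Invariant

/-!
# Weight two at level one

A weakly holomorphic form of weight two and level one has vanishing constant term.
-/

set_option autoImplicit false

noncomputable section

open UpperHalfPlane hiding I
open CongruenceSubgroup Filter Topology Complex
open scoped MatrixGroups ModularForm Real Manifold

namespace Fermat.Agent.OrdinaryP

local notation "q𝕢" => Function.Periodic.qParam (1 : ℝ)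

theorem qParam_add_one (z : ℂ) : q𝕢 (z + 1) = q𝕢 z := by
  simp only [Function.Periodic.qParam, mul_add, add_div, Complex.exp_add]
  simp [Complex.exp_two_pi_mul_I]

theorem hasDerivAt_qParam_zpow (n : ℤ) (z : ℂ) :
    HasDerivAt (fun w : ℂ => q𝕢 w ^ n) (2 * π * Complex.I * n * q𝕢 z ^ n) z := by
  have hf : (fun w : ℂ => q𝕢 w ^ n) = fun w => Complex.exp (n * (2 * π * Complex.I * w)) := by
    funext w
    simp [Function.Periodic.qParam, Complex.exp_int_mul]
  rw [hf, show q𝕢 z ^ n = Complex.exp (n * (2 * π * Complex.I * z)) from congrFun hf z]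
  refine (((hasDerivAt_id z).const_mul (2 * π * Complex.I)).const_mul (n : ℂ)).cexp.congr_deriv ?_
  simp only [id_eq]
  ring

/-- The constant term of a weakly holomorphic form of weight two and level one vanishes. -/
theorem constant_eq_zero {F : ℍ → ℂ} (hF : MDiff F) (hS : F ∣[(2 : ℤ)] ModularGroup.S = F)
    (hT : F ∣[(2 : ℤ)] ModularGroup.T = F) (s : Finset ℤ) (hs : ∀ n ∈ s, n ≠ 0) (c : ℤ → ℂ) {a₀ : ℂ}
    (hzero : IsZeroAtImInfty fun τ : ℍ => F τ - (a₀ + ∑ n ∈ s, c n * q𝕢 τ ^ n)) : a₀ = 0 := by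
  set P : ℂ → ℂ := fun z => a₀ + ∑ n ∈ s, c n * q𝕢 z ^ n with hP
  set R : ℍ → ℂ := fun τ => F τ - P τ with hR
  have hFper : Function.Periodic (F ∘ ofComplex) (((1 : ℤ) : ℝ) : ℂ) :=
    Periods.slash_periodic_aux (k := 2) (by rwa [zpow_one])
  have hPdiff : Differentiable ℂ P := fun z =>
    (differentiableAt_const a₀).add (DifferentiableAt.fun_sum fun n _ =>
      ((hasDerivAt_qParam_zpow n z).differentiableAt.const_mul (c n)))
  have hRhol : MDiff R := by
    rw [UpperHalfPlane.mdifferentiable_iff] at hF ⊢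
    refine (hF.sub hPdiff.differentiableOn).congr fun z hz => ?_
    simp [hR, ofComplex_apply_of_im_pos hz]
  have hRper : Function.Periodic (R ∘ ofComplex) ((1 : ℝ) : ℂ) := by
    intro w
    by_cases hw : 0 < w.im
    · have hw' : 0 < (w + ((1 : ℝ) : ℂ)).im := by simpa using hw
      have h1 := hFper w
      simp only [Function.comp_apply, Int.cast_one] at h1
      simp only [Function.comp_apply, hR]
      rw [h1]
      congr 1
      simp only [hP, ofComplex_apply_of_im_pos hw, ofComplex_apply_of_im_pos hw']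
      simp only [Complex.ofReal_one, qParam_add_one]
    · have hw' : (w + ((1 : ℝ) : ℂ)).im ≤ 0 := by simpa using not_lt.mp hw
      simp only [Function.comp_apply]
      rw [ofComplex_apply_of_im_nonpos hw', ofComplex_apply_of_im_nonpos (not_lt.mp hw)]
  obtain ⟨G₀, hG₀, -, hG₀per⟩ := Periods.exists_periodic_primitive one_pos hRper hRhol hzero
  set G : ℍ → ℂ := fun τ =>
    G₀ τ + (a₀ * τ + ∑ n ∈ s, c n / (2 * π * Complex.I * n) * q𝕢 τ ^ n) with hG
  have hGd : ∀ τ : ℍ, HasDerivAt (G ∘ ofComplex) (F τ) (τ : ℂ) := by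
    intro τ
    have h1 : HasDerivAt (fun z : ℂ => a₀ * z + ∑ n ∈ s, c n / (2 * π * Complex.I * n) * q𝕢 z ^ n)
        (P τ) (τ : ℂ) := by
      refine HasDerivAt.add ?_ (HasDerivAt.fun_sum fun n hn => ?_)
      · simpa using (hasDerivAt_id (τ : ℂ)).const_mul a₀
      · refine ((hasDerivAt_qParam_zpow n τ).const_mul _).congr_deriv ?_
        have h2 : (2 * π * Complex.I * n : ℂ) ≠ 0 :=
          mul_ne_zero Complex.two_pi_I_ne_zero (Int.cast_ne_zero.2 (hs n hn))
        rw [← mul_assoc, div_mul_cancel₀ _ h2]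
    refine ((hG₀ τ).add h1).congr_of_eventuallyEq ?_ |>.congr_deriv (by simp [hR])
    filter_upwards [isOpen_upperHalfPlaneSet.mem_nhds τ.im_pos] with z hz
    simp [hG, ofComplex_apply_of_im_pos hz]
  have hGT : ∀ τ : ℍ, G ((1 : ℝ) +ᵥ τ) = G τ + a₀ := fun τ => by
    simp only [hG, hG₀per, coe_vadd, Complex.ofReal_one, add_comm (1 : ℂ), qParam_add_one]
    ring
  have hfix : ∀ (γ : SL(2, ℤ)) (τ₀ : ℍ), F ∣[(2 : ℤ)] γ = F → γ • τ₀ = τ₀ →
      ∀ τ : ℍ, G (γ • τ) = G τ := by
    intro γ τ₀ hγ hτ₀ τ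
    have h := Periods.sub_const_of_hasDerivAt (A := fun w => G (γ • w)) (B := G) (f := F)
      (fun σ => by
        have := Periods.hasDerivAt_comp_smul hGd γ σ
        rwa [hγ] at this) hGd τ τ₀
    rw [hτ₀, sub_self, sub_eq_zero] at h
    exact h
  have hSfix : (ModularGroup.S • UpperHalfPlane.I : ℍ) = UpperHalfPlane.I := by
    apply UpperHalfPlane.ext
    rw [modular_S_smul]
    simp
  have hρ : ((ModularGroup.S * ModularGroup.T) • LevelOne.rho : ℍ) = LevelOne.rho := by
    rw [mul_smul, modular_T_smul, modular_S_smul]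
    apply UpperHalfPlane.ext
    simp only [coe_vadd, Complex.ofReal_one]
    have h := LevelOne.rho_sq_add
    have hne : (1 : ℂ) + LevelOne.rho ≠ 0 := fun h0 => by
      have := congrArg Complex.im h0
      simp at this
      exact LevelOne.rho.im_pos.ne' this
    field_simp
    linear_combination -h
  have h1 := hfix _ _ (by rw [SlashAction.slash_mul, hS, hT]) hρ LevelOne.rho
  rw [mul_smul, hfix _ _ hS hSfix, modular_T_smul, hGT] at h1
  exact add_left_cancel (h1.trans (add_zero _).symm)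

open Fermat.Agent.Kummer Fermat.Agent.Kummer.MeroH in
/-- An element with an expansion without negative powers has a limit at `i∞`. -/
theorem exists_tendsto_of_isExp {h : ℝ} (hh : 0 < h) {φ : ℍ → ℂ} {hφ : MDiff φ}
    {s : LaurentSeries ℂ} (hx : IsExp h (ofHol φ hφ) s) (hs : ∀ m < (0 : ℤ), s.coeff m = 0) :
    ∃ l, Tendsto φ atImInfty (𝓝 l) := by
  obtain ⟨F, hF, ex⟩ := hx
  rw [ofHol, res_mk, Germ.coe_eq] at ex
  obtain ⟨n, g, hg, hFg, hser⟩ := hF
  have hFm : MeromorphicAt F 0 := HasLaurent.meromorphicAt (s := s) ⟨n, g, hg, hFg, hser⟩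
  have hord : 0 ≤ meromorphicOrderAt F 0 := by
    by_contra hlt
    push Not at hlt
    obtain ⟨m, hm⟩ := WithTop.ne_top_iff_exists.1 hlt.ne_top
    obtain ⟨g', hg', hg'0, hFg'⟩ := (meromorphicOrderAt_eq_int_iff hFm).1 hm.symm
    have e2 : HasLaurent F (shiftSeries m (taylor g')) :=
      ⟨m, g', hg', EventuallyEq.trans hFg' (Eventually.of_forall fun z => by simp), rfl⟩
    have hse : s = shiftSeries m (taylor g') :=
      ((show HasLaurent F s from ⟨n, g, hg, hFg, hser⟩).unique e2).1 (EventuallyEq.refl _ _)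
    have hm0 : m < 0 := by rw [← hm] at hlt; exact_mod_cast hlt
    have := hs m hm0
    rw [hse, shiftSeries, HahnSeries.coeff_single_mul, one_mul, sub_self,
      show (0 : ℤ) = ((0 : ℕ) : ℤ) from rfl, HahnSeries.ofPowerSeries_apply_coeff,
      PowerSeries.coeff_zero_eq_constantCoeff, constantCoeff_taylor] at this
    exact hg'0 this
  obtain ⟨l, hl⟩ := (tendsto_nhds_iff_meromorphicOrderAt_nonneg hFm).2 hord
  obtain ⟨A, -, hA⟩ := exists_nhdsNE_of_eventually_cuspFilter ex
  obtain ⟨B, hB⟩ := exists_of_eventually_imAtTop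
    ((Function.Periodic.qParam_tendsto hh).eventually hFm.eventually_continuousAt)
  refine ⟨l, Tendsto.congr' ?_ (hl.comp ((Function.Periodic.qParam_tendsto hh).comp
    (show Tendsto ((↑) : ℍ → ℂ) atImInfty imAtTop from ?_)))⟩
  · filter_upwards [(atImInfty_mem _).2 ⟨max A B + 1, fun τ hτ => hτ⟩] with τ hτ
    have hlt : max A B < τ.im := by
      have : max A B + 1 ≤ τ.im := hτ
      linarith
    have h1 : Tendsto (φ ∘ ofComplex) (𝓝[≠] (τ : ℂ)) (𝓝 (φ τ)) := by
      have := (((UpperHalfPlane.mdifferentiable_iff.1 hφ).differentiableAt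
        (isOpen_uhp.mem_nhds τ.im_pos)).continuousAt.tendsto).mono_left
          (nhdsWithin_le_nhds (s := {(τ : ℂ)}ᶜ))
      simpa [ofComplex_apply] using this
    have h2 : Tendsto (F ∘ Function.Periodic.qParam h) (𝓝[≠] (τ : ℂ))
        (𝓝 (F (Function.Periodic.qParam h τ))) :=
      ((hB τ (lt_of_le_of_lt (le_max_right _ _) hlt)).comp
        Function.Periodic.differentiable_qParam.continuous.continuousAt).tendsto.mono_left
        nhdsWithin_le_nhds
    exact (tendsto_nhds_unique h1
      (h2.congr' ((hA τ (lt_of_le_of_lt (le_max_left _ _) hlt)).mono fun w hw => hw.symm))).symm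
  · rw [tendsto_comap_iff]
    exact tendsto_comap

end Fermat.Agent.OrdinaryP
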