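import Fermat.Agent.OrdinaryP.Transfer
import Fermat.Agent.Root.ClassField.CycloChar

/-!
# The line of an ordinary eigensystem

An element of inertia acting on `p`-th roots of unity by `-1` splits the lattice; the relations of
inertia and Frobenius kill the part on which it is trivial.
-/

set_option autoImplicit false

noncomputable section

open IsLocalRing Matrix

namespace Fermat.Agent.OrdinaryP

section Algebra

variable {R : Type*} [CommRing R]

local notation "M₂" => Matrix (Fin 2) (Fin 2) R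

/-- Cayley–Hamilton for two by two matrices. -/
theorem sq_sub_trace_smul_add_det (X : M₂) : X * X - X.trace • X + X.det • (1 : M₂) = 0 := by
  ext i j
  fin_cases i <;> fin_cases j <;>
    simp [Matrix.trace_fin_two, Matrix.det_fin_two, Matrix.mul_apply, Fin.sum_univ_two] <;> ring

/-- An element of determinant zero is of rank one. -/
theorem sandwich {E : M₂} (hE : E.det = 0) (X : M₂) : E * X * E = (E * X).trace • E := by
  rw [Matrix.det_fin_two] at hE
  ext i j
  fin_cases i <;> fin_cases j <;>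
    simp [Matrix.trace_fin_two, Matrix.mul_apply, Fin.sum_univ_two]
  · linear_combination (-(X 1 1)) * hE
  · linear_combination X 0 1 * hE
  · linear_combination X 1 0 * hE
  · linear_combination (-(X 0 0)) * hE

/-- A power of `X - c` on an eigen idempotent. -/
theorem idem_mul_sub_pow {E X : M₂} {u : R} (h : E * X = u • E) (c : ℕ) :
    ∀ n : ℕ, E * (X - (c : M₂)) ^ n = (u - c) ^ n • E
  | 0 => by rw [pow_zero, pow_zero, Matrix.mul_one, one_smul]
  | n + 1 => by
    rw [pow_succ, ← Matrix.mul_assoc, idem_mul_sub_pow h c n, Matrix.smul_mul, Matrix.mul_sub, h,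
      ← (Nat.cast_commute c E).eq, ← nsmul_eq_mul, ← Nat.cast_smul_eq_nsmul R c, ← sub_smul,
      smul_smul, ← pow_succ]

end Algebra

variable {O : Type*} [CommRing O] [IsDomain O] [IsLocalRing O]
  [IsAdicComplete (maximalIdeal O) O]

/-- A root of `X ^ 2 - t X + d` near a simple root. -/
theorem exists_root_quadratic {t d x : O} (h0 : x ^ 2 - t * x + d ∈ maximalIdeal O)
    (h1 : IsUnit (2 * x - t)) :
    ∃ u : O, u ^ 2 - t * u + d = 0 ∧ u - x ∈ maximalIdeal O := by
  let f : Polynomial O := Polynomial.X ^ 2 - Polynomial.C t * Polynomial.X + Polynomial.C d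
  have hf : f.Monic := by simp only [f]; monicity!
  obtain ⟨u, hu, hux⟩ := HenselianRing.is_henselian (I := maximalIdeal O) f hf x
    (by simpa [f] using h0) (by
      have hd : (Polynomial.derivative f).eval x = 2 * x - t := by
        simp [f]
        norm_num
      rw [hd]
      exact h1.map _)
  exact ⟨u, by simpa [f, Polynomial.IsRoot] using hu, hux⟩

omit [IsAdicComplete (maximalIdeal O) O] in
/-- Unit roots of `X ^ 2 - a X + b` with `b` in the maximal ideal are unique. -/
theorem unit_root_unique {a b α β : O} (hb : b ∈ maximalIdeal O) (hα : IsUnit α) (hβ : IsUnit β)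
    (h1 : α ^ 2 - a * α + b = 0) (h2 : β ^ 2 - a * β + b = 0) : α = β := by
  have h : (α - β) * (α + β - a) = 0 := by linear_combination h1 - h2
  refine sub_eq_zero.mp ((mul_eq_zero.mp h).resolve_right fun hs => ?_)
  have : α * β = b := by linear_combination α * hs - h1
  exact (mem_maximalIdeal _).mp (this ▸ hb) (hα.mul hβ)

omit [IsDomain O] in
theorem eq_zero_of_forall_mem_pow {x : O} (h : ∀ n : ℕ, x ∈ maximalIdeal O ^ n) : x = 0 :=
  IsHausdorff.haus (I := maximalIdeal O) inferInstance x fun n => by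
    rw [SModEq.zero, smul_eq_mul, Ideal.mul_top]
    exact h n

omit [IsAdicComplete (maximalIdeal O) O] [IsDomain O] in
/-- An element whose characteristic polynomial is `(X - 1)(X - c)` modulo the maximal ideal. -/
theorem trace_sub_mem {X : Matrix (Fin 2) (Fin 2) O} {c : ℕ} (hc : IsUnit (c : O))
    (hc1 : IsUnit (1 - (c : O)))
    (h : ∀ i j, ((X - (c : Matrix (Fin 2) (Fin 2) O)) * (X - 1)) i j ∈ maximalIdeal O)
    (hdet : X.det - c ∈ maximalIdeal O) : X.trace - (1 + c) ∈ maximalIdeal O := by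
  classical
  set r := residue O with hr
  set Y := r.mapMatrix X with hY
  set k := r (c : O) with hk
  have hc0 : k ≠ 0 := (hc.map r).ne_zero
  have hc1' : 1 - k ≠ 0 := by
    rw [hk, ← map_one r, ← map_sub]
    exact (hc1.map r).ne_zero
  have hmul : (Y - k • 1) * (Y - 1) = 0 := by
    have h0 : r.mapMatrix ((X - (c : Matrix (Fin 2) (Fin 2) O)) * (X - 1)) = 0 :=
      Matrix.ext fun i j => residue_eq_zero_iff _ |>.mpr (h i j)
    rw [map_mul, map_sub, map_sub, map_natCast, map_one] at h0
    rw [hY, hk, map_natCast, Nat.cast_smul_eq_nsmul, nsmul_one]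
    exact h0
  have hdet' : Y.det = k := by
    rw [hY, ← RingHom.map_det, hk]
    exact sub_eq_zero.mp (by rw [← map_sub]; exact (residue_eq_zero_iff _).mpr hdet)
  have hq : Y * Y - (1 + k) • Y + k • (1 : Matrix (Fin 2) (Fin 2) (ResidueField O)) = 0 := by
    rw [← hmul, sub_mul, mul_sub, mul_sub, Matrix.mul_one, Matrix.smul_mul, Matrix.one_mul,
      Matrix.smul_mul, Matrix.one_mul, add_smul, one_smul]
    abel
  have hzero : Y.trace - (1 + k) = 0 := by
    have e : (Y.trace - (1 + k)) • Y = (Y.det - k) • (1 : Matrix (Fin 2) (Fin 2) _) := by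
      have h2 := sq_sub_trace_smul_add_det Y
      rw [sub_smul, sub_smul, ← sub_eq_zero]
      rw [← sub_eq_zero.mpr (hq.trans h2.symm)]
      abel
    rw [hdet', sub_self, zero_smul] at e
    refine (smul_eq_zero.mp e).resolve_right fun hY0 => hc0 ?_
    rw [← hdet', hY0, Matrix.det_zero]
  rw [← residue_eq_zero_iff, map_sub, map_add, map_one]
  rw [hY, hk, Matrix.trace_fin_two] at hzero
  simpa [Matrix.trace_fin_two] using hzero

/-- **The split part.** An idempotent killed by everything the relations hold for. -/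
theorem exists_idempotent {X : Matrix (Fin 2) (Fin 2) O} {c : ℕ} (hc : IsUnit (c : O))
    (hc1 : IsUnit (1 - (c : O)))
    (h : ∀ i j, ((X - (c : Matrix (Fin 2) (Fin 2) O)) * (X - 1)) i j ∈ maximalIdeal O)
    (hdet : X.det - c ∈ maximalIdeal O) :
    ∃ (E : Matrix (Fin 2) (Fin 2) O) (u v : O), E.det = 0 ∧ E.trace = 1 ∧ E * X = u • E ∧
      (u - v) • (1 - E) = u • 1 - X ∧ IsUnit (u - v) ∧
      ∀ Z : Matrix (Fin 2) (Fin 2) O, (∀ n : ℕ, ∀ i j,
        ((X - (c : Matrix (Fin 2) (Fin 2) O)) ^ n * Z) i j ∈ maximalIdeal O ^ n) → E * Z = 0 := by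
  have ht := trace_sub_mem hc hc1 h hdet
  have hmem : ∀ z : O, IsUnit z → ∀ w, w - z ∈ maximalIdeal O → IsUnit w := fun z hz w hw => by
    by_contra hw'
    have := sub_mem (show w ∈ maximalIdeal O from (mem_maximalIdeal _).mpr hw') hw
    rw [sub_sub_cancel] at this
    exact (mem_maximalIdeal _).mp this hz
  obtain ⟨u, hu, hu1⟩ := exists_root_quadratic (t := X.trace) (d := X.det) (x := 1)
    (by rw [show (1 : O) ^ 2 - X.trace * 1 + X.det = (X.det - c) - (X.trace - (1 + c)) by ring]
        exact sub_mem hdet ht)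
    (hmem _ hc1 _ (by
      rw [show (2 : O) * 1 - X.trace - (1 - c) = -(X.trace - (1 + c)) by ring]
      exact neg_mem ht))
  set v := X.trace - u with hv
  have huv : IsUnit (u - v) := hmem _ hc1 _ (by
    rw [show u - v - (1 - (c : O)) = (u - 1) + (u - 1) - (X.trace - (1 + c)) by rw [hv]; ring]
    exact sub_mem (add_mem hu1 hu1) ht)
  set w := (↑huv.unit⁻¹ : O) with hw
  have hw1 : w * (u - v) = 1 := huv.val_inv_mul
  set E := w • (X - v • (1 : Matrix (Fin 2) (Fin 2) O)) with hE
  have hEdet : E.det = 0 := by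
    rw [hE, Matrix.det_smul, Fintype.card_fin, show (X - v • (1 : Matrix (Fin 2) (Fin 2) O)).det =
      u ^ 2 - X.trace * u + X.det by
        simp [Matrix.det_fin_two, Matrix.trace_fin_two, hv]; ring, hu, mul_zero]
  have hEtr : E.trace = 1 := by
    rw [hE, Matrix.trace_smul, Matrix.trace_sub, Matrix.trace_smul, Matrix.trace_one,
      Fintype.card_fin, smul_eq_mul, smul_eq_mul, ← hw1, hv]
    push_cast
    ring
  have hEX : E * X = u • E := by
    have hch := sq_sub_trace_smul_add_det X
    have h1 : (X - v • 1) * X = u • (X - v • (1 : Matrix (Fin 2) (Fin 2) O)) := by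
      rw [← sub_eq_zero, ← hch, show X.det = u * v by rw [hv]; linear_combination hu,
        show X.trace = u + v by rw [hv]; ring, Matrix.sub_mul, Matrix.smul_mul, Matrix.one_mul,
        smul_sub, smul_smul, add_smul]
      abel
    rw [hE, Matrix.smul_mul, h1, smul_comm]
  have hcompl : (u - v) • (1 - E) = u • (1 : Matrix (Fin 2) (Fin 2) O) - X := by
    rw [smul_sub, hE, smul_smul, mul_comm (u - v) w, hw1, one_smul, sub_smul]
    abel
  refine ⟨E, u, v, hEdet, hEtr, hEX, hcompl, huv, fun Z hZ => ?_⟩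
  refine Matrix.ext fun i j => eq_zero_of_forall_mem_pow fun n => ?_
  have hu' : IsUnit (u - (c : O)) := hmem _ hc1 _ (by
    rw [show u - (c : O) - (1 - c) = u - 1 by ring]; exact hu1)
  refine (Ideal.unit_mul_mem_iff_mem _ (hu'.pow n)).mp ?_
  have h1 : (E * ((X - (c : Matrix (Fin 2) (Fin 2) O)) ^ n * Z)) i j =
      (u - (c : O)) ^ n * (E * Z) i j := by
    rw [← Matrix.mul_assoc, idem_mul_sub_pow hEX c n, Matrix.smul_mul, Matrix.smul_apply,
      smul_eq_mul]
  rw [← h1, Matrix.mul_apply]
  exact sum_mem fun l _ => Ideal.mul_mem_left _ _ (hZ n l j)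

/-- **A decomposition group on the line.** -/
theorem exists_char {G : Type*} [Group G] (D I : Subgroup G)
    (hnorm : ∀ g ∈ D, ∀ τ ∈ I, g * τ * g⁻¹ ∈ I) (R : G →* Matrix (Fin 2) (Fin 2) O)
    (F : G → Prop) {a b : O} {σ : G} (hσ : σ ∈ I) {c : ℕ} (hc : IsUnit (c : O))
    (hc1 : IsUnit (1 - (c : O))) (hdet : (R σ).det - c ∈ maximalIdeal O)
    (h1 : ∀ τ ∈ I, ∀ n : ℕ, ∀ i j,
      ((R σ - (c : Matrix (Fin 2) (Fin 2) O)) ^ n * (R τ - 1)) i j ∈ maximalIdeal O ^ n)
    (h2 : ∀ φ, F φ → ∀ n : ℕ, ∀ i j, ((R σ - (c : Matrix (Fin 2) (Fin 2) O)) ^ n *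
      (R φ * R φ - a • R φ + b • 1)) i j ∈ maximalIdeal O ^ n) :
    ∃ s : D →* O, (∀ g : D, (g : G) ∈ I → s g = 1) ∧
      (∀ g : D, F (g : G) → IsUnit (s g) ∧ s g ^ 2 - a * s g + b = 0) ∧
      ∀ g h : D, (R g - ((R g).det * s g⁻¹) • 1) * (R h - s h • 1) = 0 := by
  have h11 : ∀ i j, ((R σ - (c : Matrix (Fin 2) (Fin 2) O)) * (R σ - 1)) i j ∈ maximalIdeal O :=
    fun i j => by
      have := h1 σ hσ 1 i j
      rwa [pow_one, pow_one] at this
  obtain ⟨E, u, v, hEdet, hEtr, hEX, hcompl, huv, hkill⟩ := exists_idempotent hc hc1 h11 hdet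
  have hEI : ∀ τ ∈ I, E * R τ = E := fun τ hτ => by
    have := hkill _ (h1 τ hτ)
    rwa [Matrix.mul_sub, Matrix.mul_one, sub_eq_zero] at this
  have hu1 : u = 1 := by
    have h := congrArg Matrix.trace ((hEI σ hσ).symm.trans hEX)
    rw [Matrix.trace_smul, hEtr, smul_eq_mul, mul_one] at h
    exact h.symm
  have hline : ∀ g ∈ D, E * R g * (1 - E) = 0 := fun g hg => by
    have hfix : E * R g * R σ = E * R g := by
      rw [Matrix.mul_assoc, ← map_mul, show g * σ = g * σ * g⁻¹ * g by group, map_mul,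
        ← Matrix.mul_assoc, hEI _ (hnorm g hg σ hσ)]
    have h : (u - v) • (E * R g * (1 - E)) = 0 := by
      rw [← Matrix.mul_smul, hcompl, hu1, one_smul, Matrix.mul_sub, Matrix.mul_one, hfix, sub_self]
    exact (smul_eq_zero.mp h).resolve_left huv.ne_zero
  have hmul : ∀ g ∈ D, E * R g = (E * R g).trace • E := fun g hg => by
    rw [← sandwich hEdet, ← sub_eq_zero]
    have := hline g hg
    rwa [Matrix.mul_sub, Matrix.mul_one] at this
  let s : D →* O :=
    { toFun := fun g => (E * R g).trace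
      map_one' := by rw [Subgroup.coe_one, map_one, Matrix.mul_one, hEtr]
      map_mul' := fun g h => by
        rw [Subgroup.coe_mul, map_mul, ← Matrix.mul_assoc]
        conv_lhs => rw [hmul g g.2, Matrix.smul_mul, Matrix.trace_smul, smul_eq_mul] }
  have hs : ∀ g : D, E * R g = s g • E := fun g => hmul g g.2
  refine ⟨s, fun g hg => ?_, fun g hg => ⟨((Group.isUnit g).map s), ?_⟩, fun g h => ?_⟩
  · show (E * R g).trace = 1
    rw [hEI _ hg, hEtr]
  · have h0 := congrArg Matrix.trace (hkill _ (h2 _ hg))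
    rw [Matrix.mul_add, Matrix.mul_sub, ← Matrix.mul_assoc, hs, Matrix.smul_mul, hs,
      Matrix.mul_smul, hs, Matrix.mul_smul, Matrix.mul_one] at h0
    simp only [Matrix.trace_add, Matrix.trace_sub, Matrix.trace_smul, hEtr, smul_eq_mul,
      Matrix.trace_zero] at h0
    linear_combination h0
  · set t := (R g).det * s g⁻¹ with ht
    have hE1 : E * (R h - s h • 1) = 0 := by
      rw [Matrix.mul_sub, hs, Matrix.mul_smul, Matrix.mul_one, sub_self]
    have hh : R h - s h • (1 : Matrix (Fin 2) (Fin 2) O) = (1 - E) * (R h - s h • 1) := by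
      rw [Matrix.sub_mul, Matrix.one_mul, hE1, sub_zero]
    have hE'det : (1 - E).det = 0 := by
      rw [show (1 - E).det = 1 - E.trace + E.det by
        simp [Matrix.det_fin_two, Matrix.trace_fin_two]; ring, hEtr, hEdet]
      ring
    have htr : ((1 - E) * R g).trace = t := by
      rw [Matrix.sub_mul, Matrix.one_mul, Matrix.trace_sub, show (E * R g).trace = s g from rfl]
      have h0 := congrArg (fun Z => (E * Z).trace) (sq_sub_trace_smul_add_det (R g))
      simp only [Matrix.mul_add, Matrix.mul_sub, ← Matrix.mul_assoc, hs, Matrix.smul_mul,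
        Matrix.mul_smul, Matrix.mul_one, Matrix.trace_add, Matrix.trace_sub, Matrix.trace_smul,
        hEtr, smul_eq_mul, Matrix.mul_zero, Matrix.trace_zero] at h0
      have hsg : s g * s g⁻¹ = 1 := by rw [← map_mul, mul_inv_cancel, map_one]
      rw [ht]
      linear_combination (s g - (R g).trace) * hsg - s g⁻¹ * h0
    have hg0 : (R g - t • (1 : Matrix (Fin 2) (Fin 2) O)) * (1 - E) = 0 := by
      have h2 : R g * (1 - E) = (1 - E) * R g * (1 - E) := by
        rw [Matrix.sub_mul 1 E (R g), Matrix.one_mul, Matrix.sub_mul, hline g g.2, sub_zero]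
      rw [Matrix.sub_mul, h2, sandwich hE'det, htr, Matrix.smul_mul, Matrix.one_mul, sub_self]
    rw [hh, ← Matrix.mul_assoc, hg0, Matrix.zero_mul]

end Fermat.Agent.OrdinaryP
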