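import Fermat.Agent.MazurStep.Local.Formal
import Fermat.Agent.Reduction.Level.HeckeLift
import Fermat.Agent.GalRep.DatumJZero
import Fermat.Agent.Kummer.Galois
import Fermat.Agent.FlatModel.JZero

/-!
# Inertia on the ordinary part of the kernel of reduction

For `p ∤ N` there is `k` such that, for every inertia element `σ` at a place over `p` acting on
`p`-th roots of unity by `c`, the composite `(σ - c) T_p ^ k` kills the classes reducing to zero
killed by `p`, hence its `n`-th power those killed by `p ^ n`.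
-/

set_option autoImplicit false

noncomputable section

open AlgebraicCurve ModularCurve
open Fermat.Agent.Reduction Fermat.Agent.MazurStep

namespace Fermat.Agent.OrdinaryP

local notation "Qb" => AlgebraicClosure ℚ
local notation "Γℚ" => AlgebraicClosure ℚ ≃ₐ[ℚ] AlgebraicClosure ℚ

/-! ### Idempotent powers -/

/-- In a finite monoid every element has an idempotent power, of any multiple of some exponent. -/
theorem exists_idempotent_pow {G : Type*} [Monoid G] [Finite G] (x : G) :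
    ∃ k, 0 < k ∧ ∀ m, 0 < m → x ^ (k * m) * x ^ (k * m) = x ^ (k * m) := by
  obtain ⟨i, j, hne, he⟩ := Finite.exists_ne_map_eq_of_infinite fun i : ℕ => x ^ i
  wlog hij : i < j generalizing i j
  · exact this j i hne.symm he.symm (lt_of_le_of_ne (not_lt.mp hij) hne.symm)
  obtain ⟨d, rfl⟩ : ∃ d, j = i + d := ⟨j - i, by omega⟩
  have hper : ∀ s t, i ≤ s → x ^ (s + d * t) = x ^ s := by
    intro s t hs
    induction t with
    | zero => simp
    | succ t ih =>
      obtain ⟨u, rfl⟩ := Nat.exists_eq_add_of_le hs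
      rw [show i + u + d * (t + 1) = i + d + (u + d * t) by ring, pow_add, ← he, ← pow_add,
        ← add_assoc, ih]
  refine ⟨d * (i + 1), Nat.mul_pos (by omega) (by omega), fun m hm => ?_⟩
  rw [← pow_add, show d * (i + 1) * m + d * (i + 1) * m = d * (i + 1) * m + d * ((i + 1) * m) by
    ring]
  refine hper _ _ ?_
  calc i ≤ d * (i + 1) * 1 := by nlinarith
    _ ≤ d * (i + 1) * m := Nat.mul_le_mul_left _ hm

/-- The kernel of reduction of two copies of a curve. -/
theorem exists_gap_sp_iff {K k : Type*} [Field K] [Field k] {A : ValuationSubring K} {π : A →+* k}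
    {S : CurveRed A π} {n₀ : ℕ} {F' : IntermediateField K (LaurentSeries K)} (h : F' = S.F)
    (g₁ : (S.withF F' h).GapBound n₀) :
    ∃ g₂ : (copyF S h).GapBound n₀, ∀ z : Pic0 K F', g₂.sp z = 0 ↔ g₁.sp z = 0 := by
  subst h
  cases S
  dsimp only [CurveRed.withF, copyF] at *
  exact ⟨g₁, fun _ => Iff.rfl⟩

variable {p : ℕ} [hp : Fact p.Prime] {A : ValuationSubring Qb} (hA : A.LiesOverPrime p) (N : ℕ)
  [NeZero N] (hpN : ¬ p ∣ N)

/-- The gap bound of `modCurve` with the same kernel of reduction as `spBar`. -/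
theorem exists_gap_modCurve : ∃ (n₀ : ℕ) (g : (modCurve hA N hpN).GapBound n₀),
    ∀ z : JZero N, g.sp z = 0 ↔ Level.spBar A hA N hpN z = 0 :=
  ⟨_, exists_gap_sp_iff (S := Level.qbarCurve A hA N hpN)
    (modularFunctionFieldBar_eq_qbarCurve hA N hpN)
    (Level.exists_gapBound_bar A hA N hpN).choose_spec⟩

/-- `T_p` as an additive endomorphism. -/
def heckeAt (N : ℕ) [NeZero N] (p : ℕ) [hp : Fact p.Prime] : AddMonoid.End (JZero N) :=
  (heckeOperatorBar N ⟨p, hp.out⟩).toAddMonoidHom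

/-- A Galois element minus an integer. -/
def galSub (σ : Γℚ) (c : ℕ) : AddMonoid.End (JZero N) :=
  let e : AddMonoid.End (JZero N) := DistribSMul.toAddMonoidHom (JZero N) σ
  e - c • (1 : AddMonoid.End (JZero N))

omit [NeZero N] in
theorem galSub_apply (σ : Γℚ) (c : ℕ) (x : JZero N) : galSub N σ c x = σ • x - c • x := rfl

theorem heckeAt_pow_smul (k : ℕ) (σ : Γℚ) (x : JZero N) :
    (heckeAt N p ^ k) (σ • x) = σ • (heckeAt N p ^ k) x := by
  induction k generalizing x with
  | zero => rfl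
  | succ k ih =>
    rw [pow_succ]
    show (heckeAt N p ^ k) (heckeAt N p (σ • x)) = σ • (heckeAt N p ^ k) (heckeAt N p x)
    rw [← ih]
    exact congrArg _ (Kummer.heckeOperatorBar_smul (N := N) (⟨p, hp.out⟩ : Nat.Primes) σ x)

theorem spBar_heckeAt {x : JZero N} (hx : Level.spBar A hA N hpN x = 0) :
    Level.spBar A hA N hpN (heckeAt N p x) = 0 := by
  refine (Level.spBar_hecke A hA N hpN (Level.heckeFrobLift A hA N hpN) x).trans ?_
  rw [hx, map_zero, map_zero, smul_zero, add_zero]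

theorem spBar_heckeAt_pow (k : ℕ) {x : JZero N} (hx : Level.spBar A hA N hpN x = 0) :
    Level.spBar A hA N hpN ((heckeAt N p ^ k) x) = 0 := by
  induction k generalizing x with
  | zero => exact hx
  | succ k ih =>
    rw [pow_succ]
    exact ih (spBar_heckeAt hA N hpN hx)

/-- A power of `T_p` idempotent on the `p`-torsion. -/
theorem exists_pow_idempotent_torsion : ∃ k, 0 < k ∧ ∀ m, 0 < m → ∀ x : JZero N, p • x = 0 →
    (heckeAt N p ^ (k * m)) ((heckeAt N p ^ (k * m)) x) = (heckeAt N p ^ (k * m)) x := by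
  let X := {x : JZero N // p • x = 0}
  have : Finite X := by
    have := (Fermat.Agent.FlatModel.finite_torsion N p)
    exact Finite.of_injective
      (β := Pic0.torsion Qb (modularFunctionFieldBar N) p)
      (fun x => ⟨x.1, Pic0.mem_torsion.mpr (by rw [natCast_zsmul]; exact x.2)⟩)
      fun x y h => Subtype.ext (congrArg Subtype.val h)
  let f : X → X := fun x => ⟨heckeAt N p x.1, by rw [← map_nsmul, x.2, map_zero]⟩
  have hf : ∀ (k : ℕ) (x : X), ((f ^[k]) x).1 = (heckeAt N p ^ k) x.1 := by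
    intro k
    induction k with
    | zero => exact fun x => rfl
    | succ k ih =>
      intro x
      rw [Function.iterate_succ_apply, pow_succ, ih]
      rfl
  have : Finite (Function.End X) := inferInstanceAs (Finite (X → X))
  obtain ⟨k, hk, hidem⟩ := exists_idempotent_pow (G := Function.End X) (show Function.End X from f)
  refine ⟨k, hk, fun m hm x hx => ?_⟩
  have h := congrFun (hidem m hm) ⟨x, hx⟩
  have hpow : ∀ j : ℕ, (show Function.End X from f) ^ j = f ^[j] := fun j => by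
    induction j with
    | zero => rfl
    | succ j ih => rw [pow_succ, ih]; exact (Function.iterate_succ f j).symm
  have h' : f^[k * m] (f^[k * m] ⟨x, hx⟩) = f^[k * m] ⟨x, hx⟩ := by
    rw [← hpow]; exact h
  have h2 := congrArg Subtype.val h'
  rw [hf, hf] at h2
  exact h2

/-- **Inertia on the ordinary part killed by `p`.** -/
theorem exists_pow_kill : ∃ k, ∀ σ ∈ A.inertiaSubgroupIn ℚ, ∀ c : ℕ,
    (∀ μ : Qb, μ ^ p = 1 → σ μ = μ ^ c) → ∀ x : JZero N, p • x = 0 →
      Level.spBar A hA N hpN x = 0 → galSub N σ c ((heckeAt N p ^ k) x) = 0 := by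
  have := Gal.isAlgClosed_residueField A
  obtain ⟨n₀, g, hg⟩ := exists_gap_modCurve hA N hpN
  obtain ⟨M, hM, hact⟩ := exists_acts_modCurve hA N hpN hpN g
  obtain ⟨k₁, hk₁, hT⟩ := exists_pow_idempotent_torsion N (p := p)
  obtain ⟨k₂, hk₂, hMk⟩ := exists_idempotent_pow (M.map (Int.cast : ℤ → ZMod p))
  have hk : 0 < k₁ * k₂ := Nat.mul_pos hk₁ hk₂
  obtain ⟨j, hj⟩ : ∃ j, k₁ * k₂ = j + 1 := ⟨k₁ * k₂ - 1, by omega⟩
  have hinv : ∀ i j', (p : ℤ) ∣
      (M ^ j * (M ^ (k₁ * k₂) * M)) i j' - (M ^ (k₁ * k₂)) i j' := by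
    intro i j'
    rw [← ZMod.intCast_eq_intCast_iff_dvd_sub]
    have hmap : ∀ e : ℕ, (M ^ e).map (Int.cast : ℤ → ZMod p) = M.map Int.cast ^ e := fun e =>
      map_pow (Int.castRingHom (ZMod p)).mapMatrix M e
    have h1 := congrFun (congrFun (hmap (j + (k₁ * k₂ + 1))) i) j'
    have h2 := congrFun (congrFun (hmap (k₁ * k₂)) i) j'
    rw [Matrix.map_apply] at h1 h2
    rw [← pow_succ, ← pow_add, h1, h2, show j + (k₁ * k₂ + 1) = k₁ * k₂ + k₁ * k₂ by omega,
      pow_add, mul_comm k₁ k₂, hMk k₁ hk₁]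
  let L := modLocalData hA N hpN g M (M ^ (k₁ * k₂)) (M ^ j)
    ((modForms hA N hpN).isFrobMatrix_of_heckeCoef hM) hinv
  let T := inertiaGroup hA L rfl
  have hgal : ∀ (τ : A.inertiaSubgroupIn ℚ) (z : JZero N),
      (T.sym τ).act z = (τ : Γℚ) • z := inertiaSym_act hA N hpN
  let G : AddSubgroup (JZero N) :=
    { carrier := {z | p • z = 0 ∧ Level.spBar A hA N hpN z = 0 ∧
        (heckeAt N p ^ (k₁ * k₂)) z = z}
      add_mem' := fun {a b} ha hb => ⟨by rw [nsmul_add, ha.1, hb.1, add_zero],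
        by rw [map_add, ha.2.1, hb.2.1, add_zero], by rw [map_add, ha.2.2, hb.2.2]⟩
      zero_mem' := ⟨nsmul_zero p, map_zero _, map_zero _⟩
      neg_mem' := fun {a} ha => ⟨by rw [neg_nsmul, ha.1, neg_zero],
        by rw [map_neg, ha.2.1, neg_zero], by rw [map_neg, ha.2.2]⟩ }
  have hG : T.IsPiece (heckeAt N p ^ (k₁ * k₂)) G :=
    { tracks := by
        have h := pow_mem (S := (modForms hA N hpN).actsSubsemiring g)
          (show ((heckeAt N p, M) : _ × _) ∈ (modForms hA N hpN).actsSubsemiring g from hact)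
          (k₁ * k₂)
        exact h
      torsion := fun z hz => hz.1
      fixed := fun z hz => hz.2.2
      sp_zero := fun z hz => (hg z).mpr hz.2.1
      stable := fun τ z hz => by
        rw [hgal]
        exact ⟨by rw [← GalRep.galois_nsmul N, hz.1, GalRep.galois_zero],
          by rw [Level.spBar_inertia A hA N hpN τ.2, hz.2.1],
          by rw [heckeAt_pow_smul, hz.2.2]⟩ }
  refine ⟨k₁ * k₂, fun σ hσ c hc x hx hx0 => ?_⟩
  set y := (heckeAt N p ^ (k₁ * k₂)) x with hy
  have hyG : y ∈ G := ⟨by rw [hy, ← map_nsmul, hx, map_zero],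
    spBar_heckeAt_pow hA N hpN _ hx0, hT k₂ hk₂ x hx⟩
  rw [galSub_apply, sub_eq_zero]
  obtain ⟨ζ, hζ⟩ : ∃ ζ : Qb, IsPrimitiveRoot ζ L.l := by
    have : NeZero ((L.l : ℕ) : Qb) := ⟨L.ne_zero⟩
    exact HasEnoughRootsOfUnity.exists_primitiveRoot Qb L.l
  rw [← hgal ⟨σ, hσ⟩ y]
  exact T.act_eq_nsmul hG hyG ⟨σ, hσ⟩ fun hm =>
    T.residue_apply_Λ (σ := ⟨σ, hσ⟩) hζ (hc ζ hζ.pow_eq_one) hm

/-- **Inertia on the ordinary part killed by `p ^ n`.** -/
theorem exists_pow_kill_pow : ∃ k, ∀ σ ∈ A.inertiaSubgroupIn ℚ, ∀ c : ℕ,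
    (∀ μ : Qb, μ ^ p = 1 → σ μ = μ ^ c) → ∀ (n : ℕ) (x : JZero N), p ^ n • x = 0 →
      Level.spBar A hA N hpN x = 0 → ((galSub N σ c * heckeAt N p ^ k) ^ n) x = 0 := by
  obtain ⟨k, hk⟩ := exists_pow_kill hA N hpN
  refine ⟨k, fun σ hσ c hc n => ?_⟩
  induction n with
  | zero => exact fun x hx _ => by simpa using hx
  | succ n ih =>
    intro x hx hx0
    rw [pow_succ]
    refine ih _ ?_ ?_
    · rw [← map_nsmul]
      exact hk σ hσ c hc _ (by rw [smul_smul, ← pow_succ', hx]) (by rw [map_nsmul, hx0, smul_zero])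
    · show Level.spBar A hA N hpN (galSub N σ c ((heckeAt N p ^ k) x)) = 0
      rw [galSub_apply, map_sub, map_nsmul, Level.spBar_inertia A hA N hpN hσ,
        spBar_heckeAt_pow hA N hpN k hx0, smul_zero, sub_zero]

end Fermat.Agent.OrdinaryP
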