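import Fermat.Agent.OrdinaryP.LevelOne
import Fermat.Agent.MFGenus.AnalyticPlaces
import Fermat.Agent.Kummer.Orders
import Fermat.Agent.Reduction.Level.Setup

/-!
# The residue identity at `q = 0`

For a modular function `u` of level `N` regular outside `q = 0` and a cusp form `f` of weight two
the constant term of the series of `u * f` vanishes.
-/

set_option autoImplicit false

noncomputable section

open UpperHalfPlane hiding I
open CongruenceSubgroup Filter Topology Complex AlgebraicCurve ModularCurve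
open scoped MatrixGroups ModularForm Real Manifold
open Fermat.Agent.Kummer Fermat.Agent.Kummer.MeroH Fermat.Agent.MFGenus

namespace Fermat.Agent.OrdinaryP

variable {L : Type*} [Field L] [Algebra ℚ L] [IsAlgClosed L] {N : ℕ} [NeZero N] (ι : L →+* ℂ)

omit [NeZero N] in
omit [IsAlgClosed L] in
theorem order_coe_jElt : ((jElt L N : FL L N) : LaurentSeries L).order = -1 := by
  rw [show ((jElt L N : FL L N) : LaurentSeries L) = coeffEmb L (qExpand ℚ 1 (jqModC ℚ)) from rfl,
    Reduction.Level.coeffEmb_qExpand_jqModC, qExpand_one_apply, Igusa.order_jqModC]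

omit [NeZero N] in
omit [IsAlgClosed L] in
theorem jElt_ne_zero : jElt L N ≠ 0 := fun h => by
  have h1 := order_coe_jElt (L := L) (N := N)
  rw [h, ZeroMemClass.coe_zero, HahnSeries.order_zero] at h1
  omega

variable {vp : Place L (FL L N)} (hvp : ∀ f : FL L N, vp.ord f = (f : LaurentSeries L).order)
  {u : FL L N} (hu : ∀ v : Place L (FL L N), v ≠ vp → 0 ≤ v.ord u)

include ι hvp hu

omit [IsAlgClosed L] in
/-- A function regular outside `q = 0` is holomorphic on the upper half plane. -/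
theorem ordAt_embed_nonneg (z : ℂ) (hz : z ∈ uhp) : 0 ≤ ordAt (embed ι N u) z := by
  rcases eq_or_ne u 0 with rfl | hu0
  · rw [map_zero, ordAt_zero hz]; exact le_top
  have := MFGenus.isFunctionField_FL (N := N) ι
  have ho := Kummer.isOrd_ordPoint (L := L) (N := N) ι ⟨z, hz⟩
  have hmem : u ∈ ho.valuationSubring := by
    have hK : ∀ a : L, algebraMap L (FL L N) a ∈ ho.valuationSubring := fun a =>
      (IsOrd.mem_valuationSubring ho).2 (Or.inr (Kummer.ordPoint_algebraMap ι _ a).ge)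
    by_cases htop : ho.valuationSubring = ⊤
    · rw [htop]; exact ValuationSubring.mem_top u
    let v : Place L (FL L N) :=
      ⟨ho.valuationSubring, hK, htop,
        FF.isPrincipalIdealRing_valuationSubring_of_ne_top _ hK⟩
    refine (MFGenus.mem_iff_ord_nonneg v hu0).2 (hu v fun hv => ?_)
    have hj : jElt L N ∈ v.toValuationSubring := by
      refine (IsOrd.mem_valuationSubring ho).2 (Or.inr ?_)
      have h0 := ordAt_jMero_nonneg hz
      rw [← embed_jElt ι (N := N),
        ← Kummer.coe_ordPoint ι ⟨z, hz⟩ (jElt_ne_zero (L := L) (N := N))] at h0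
      exact WithTop.coe_nonneg.1 h0
    have h1 := (MFGenus.mem_iff_ord_nonneg v jElt_ne_zero).1 hj
    rw [hv, hvp, order_coe_jElt] at h1
    omega
  have h2 := ((IsOrd.mem_valuationSubring ho).1 hmem).resolve_left hu0
  rw [show z = ((⟨z, hz⟩ : ℍ) : ℂ) from rfl, ← Kummer.coe_ordPoint ι ⟨z, hz⟩ hu0]
  exact WithTop.coe_nonneg.2 h2

omit hu in
/-- The place `q = 0` is the image of the trivial coset. -/
theorem exists_series_nonneg {q : SL(2, ℤ) ⧸ Gamma0 N}
    (hq : q ≠ ((1 : SL(2, ℤ)) : SL(2, ℤ) ⧸ Gamma0 N))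
    (hu : ∀ v : Place L (FL L N), v ≠ vp → 0 ≤ v.ord u) :
    ∃ s : LaurentSeries ℂ, IsExp (N : ℝ) (conjEmbed ι q u) s ∧ ∀ m < (0 : ℤ), s.coeff m = 0 := by
  rcases eq_or_ne u 0 with rfl | hu0
  · exact ⟨0, by simpa using IsExp.zero, fun m _ => rfl⟩
  set q1 : SL(2, ℤ) ⧸ Gamma0 N := ((1 : SL(2, ℤ)) : SL(2, ℤ) ⧸ Gamma0 N) with hq1
  obtain ⟨e, he⟩ := MFGenus.exists_cusp_equiv (N := N) ι
  have hN : (0 : ℝ) < N := by exact_mod_cast NeZero.pos N
  have hne : (Quotient.mk'' q : Cosets.CuspOrbit N) ≠ Quotient.mk'' q1 := by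
    intro h
    obtain ⟨⟨γ, hγ⟩, hγq⟩ := MulAction.orbitRel_apply.1 (Quotient.eq''.1 h)
    obtain ⟨k, rfl⟩ := Subgroup.mem_zpowers_iff.1 hγ
    refine hq (hγq.symm.trans ?_)
    change (((ModularGroup.T ^ k * 1 : SL(2, ℤ))) : SL(2, ℤ) ⧸ Gamma0 N) = q1
    refine QuotientGroup.eq.2 ?_
    rw [mul_one, mul_one]
    exact inv_mem (Subgroup.zpow_mem _ (Gamma0_mem.2 (by simp [ModularGroup.coe_T])) k)
  -- the place of the trivial coset is `vp`
  have hvp1 : (e (Quotient.mk'' q1)).1 = vp := by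
    refine Place.ext (SetLike.ext fun f => ?_)
    rcases eq_or_ne f 0 with rfl | hf
    · exact ⟨fun _ => zero_mem _, fun _ => zero_mem _⟩
    rw [MFGenus.mem_iff_ord_nonneg _ hf, MFGenus.mem_iff_ord_nonneg _ hf, hvp]
    have hc : (0 : ℤ) < ((N / Cosets.cuspWidth q1 : ℕ) : ℤ) := by
      exact_mod_cast Nat.div_pos (Nat.le_of_dvd (NeZero.pos N) (MFGenus.cuspWidth_dvd q1))
        (Nat.pos_of_ne_zero fun h0 => NeZero.ne N
          (Nat.eq_zero_of_zero_dvd (h0 ▸ MFGenus.cuspWidth_dvd q1)))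
    rw [← mul_nonneg_iff_of_pos_right hc (b := (e (Quotient.mk'' q1)).1.ord f),
      ← (he q1).2 f hf]
    -- the expansion in width `N`
    obtain ⟨t, ht, htc, htz⟩ := (isExp_embed ι f).intComp_upper (a := 1) (b := 0) (d := 1)
      one_pos one_pos (h := N) (e := N) (NeZero.pos N) rfl
    rw [intComp_congr _ (by simp) (show (!![(1 : ℤ), 0; 0, 1] : Matrix (Fin 2) (Fin 2) ℤ) =
      ((1 : SL(2, ℤ)) : Matrix (Fin 2) (Fin 2) ℤ) by simp [Matrix.one_fin_two]), intComp_coe,
      slComp_one] at ht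
    have hval : (cuspEmbed ι q1 f : MeroH) = embed ι N f := by
      rw [coe_cuspEmbed, hq1, conjEmbed_mk, inv_one, slComp_one]
    rw [ordInfty_eq (x := cuspEmbed ι q1 f) (s := t) (by rw [hval]; exact ht)]
    set s := (f : LaurentSeries L)
    have hs0 : s ≠ 0 := fun h0 => hf (Subtype.ext h0)
    have hts : ∀ k : ℤ, t.coeff ((N : ℤ) * k) = 0 ↔ s.coeff k = 0 := fun k => by
      rw [htc, mul_eq_zero, or_iff_right (zpow_ne_zero _ (Function.Periodic.qParam_ne_zero _))]
      rw [show (coeffMap ι s).coeff k = ι (s.coeff k) from rfl, map_eq_zero]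
    have ht0 : t ≠ 0 := fun h0 =>
      HahnSeries.coeff_order_eq_zero.not.2 hs0 ((hts s.order).1 (by simp [h0]))
    constructor
    · intro h
      by_contra hlt
      push Not at hlt
      refine HahnSeries.coeff_order_eq_zero.not.2 hs0 ((hts s.order).1 ?_)
      refine HahnSeries.coeff_eq_zero_of_lt_order ?_
      have : (N : ℤ) * s.order < 0 :=
        mul_neg_of_pos_of_neg (by exact_mod_cast NeZero.pos N) hlt
      omega
    · intro h
      by_contra hlt
      push Not at hlt
      refine HahnSeries.coeff_order_eq_zero.not.2 ht0 ?_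
      by_cases hd : (N : ℤ) ∣ t.order
      · obtain ⟨k, hk⟩ := hd
        rw [hk, hts]
        refine HahnSeries.coeff_eq_zero_of_lt_order ?_
        rw [hk] at hlt
        by_contra hk0
        push Not at hk0
        nlinarith [(show (0 : ℤ) < N by exact_mod_cast NeZero.pos N)]
      · exact htz _ hd
  have hv : (e (Quotient.mk'' q)).1 ≠ vp := fun h =>
    hne (e.injective (Subtype.ext (h.trans hvp1.symm)))
  refine ⟨_, (cuspEmbed ι q u).2.choose_spec, fun m hm => HahnSeries.coeff_eq_zero_of_lt_order ?_⟩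
  have h1 : 0 ≤ ordInfty (cuspEmbed ι q u) := by
    rw [(he q).2 u hu0]
    exact mul_nonneg (hu _ hv) (by positivity)
  exact lt_of_lt_of_le hm h1

omit [IsAlgClosed L] ι hvp hu in
/-- Isolated statement: a finite principal part. -/
theorem isZeroAtImInfty_sub_principal {X : ℍ → ℂ} {hX : MDiff X} {t : LaurentSeries ℂ}
    (ht : IsExp 1 (ofHol X hX) t) :
    ∃ s : Finset ℤ, (∀ n ∈ s, n ≠ 0) ∧ IsZeroAtImInfty fun τ : ℍ =>
      X τ - (t.coeff 0 + ∑ n ∈ s, t.coeff n * Function.Periodic.qParam (1 : ℝ) τ ^ n) := by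
  classical
  set s : Finset ℤ := (Finset.Ico (min t.order 0) 0)
  refine ⟨s, fun n hn => ne_of_lt (Finset.mem_Ico.1 hn).2, ?_⟩
  set q : ℍ → ℂ := fun τ => Function.Periodic.qParam (1 : ℝ) τ with hqdef
  have hqd : MDiff q := LevelOne.mdifferentiable_qParam_one
  have hqne : ∀ τ, q τ ≠ 0 := fun τ => Function.Periodic.qParam_ne_zero _
  have hpow : ∀ n : ℤ, MDiff fun τ => q τ ^ n := fun n => by
    rw [UpperHalfPlane.mdifferentiable_iff]
    exact fun z _ => (((hasDerivAt_qParam_zpow n z).differentiableAt).congr_of_eventuallyEq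
      (by
        filter_upwards [isOpen_uhp.mem_nhds (by assumption)] with w hw
        simp [hqdef, ofComplex_apply_of_im_pos hw])).differentiableWithinAt
  have hexp1 : ∀ n : ℤ, IsExp 1 (ofHol _ (hpow n)) (HahnSeries.single n 1) := by
    have hQ := isExp_qParam
    have hQ0 : ofHol q hqd ≠ 0 := fun h0 =>
      HahnSeries.single_ne_zero one_ne_zero ((hQ.series_eq_zero_iff one_pos).2 h0)
    have hnat : ∀ n : ℕ, IsExp 1 (ofHol _ (hpow n)) (HahnSeries.single (n : ℤ) 1) := fun n => by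
      induction n with
      | zero =>
        rw [show ofHol _ (hpow ((0 : ℕ) : ℤ)) = 1 from
          ofHol_congr _ mdifferentiable_const (funext fun τ => by simp)]
        exact IsExp.one
      | succ n ih =>
        rw [show ofHol _ (hpow ((n + 1 : ℕ) : ℤ)) = ofHol _ (hpow (n : ℤ)) * ofHol q hqd from
          ofHol_congr (hpow ((n + 1 : ℕ) : ℤ)) ((hpow (n : ℤ)).mul hqd) (funext fun τ => by
            simp only [Nat.cast_add, Nat.cast_one, zpow_add_one₀ (hqne τ), Pi.mul_apply])]
        convert ih.mul hQ using 1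
        rw [HahnSeries.single_mul_single, mul_one]
        push_cast
        rfl
    intro n
    rcases Int.eq_nat_or_neg n with ⟨a, rfl | rfl⟩
    · exact hnat a
    · have hinv : ofHol _ (hpow (-(a : ℤ))) = (ofHol _ (hpow (a : ℤ)))⁻¹ := by
        refine eq_inv_of_mul_eq_one_left ?_
        exact (ofHol_congr ((hpow (-(a : ℤ))).mul (hpow (a : ℤ))) mdifferentiable_const
          (funext fun τ => show q τ ^ (-(a : ℤ)) * q τ ^ (a : ℤ) = (1 : ℂ) by
            rw [← zpow_add₀ (hqne τ), neg_add_cancel, zpow_zero]))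
      rw [hinv]
      convert (hnat a).inv one_pos using 1
      refine eq_inv_of_mul_eq_one_left ?_
      rw [HahnSeries.single_mul_single, mul_one, neg_add_cancel]
      rfl
  -- the principal part
  set T : Finset ℤ := insert 0 s
  set P : ℍ → ℂ := fun τ => ∑ n ∈ T, t.coeff n * q τ ^ n
  have hP : ∀ T' : Finset ℤ, ∃ hd : MDiff fun τ => ∑ n ∈ T', t.coeff n * q τ ^ n,
      IsExp 1 (ofHol _ hd) (∑ n ∈ T', HahnSeries.single n (t.coeff n)) := by
    intro T'
    induction T' using Finset.induction with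
    | empty =>
      refine ⟨by simpa using mdifferentiable_const, ?_⟩
      rw [Finset.sum_empty, show ofHol _ _ = (0 : MeroH) from
        ofHol_congr _ mdifferentiable_const (funext fun τ => Finset.sum_empty)]
      exact IsExp.zero
    | insert a T' ha ih =>
      obtain ⟨hd, hexp⟩ := ih
      have hd1 : MDiff fun τ => t.coeff a * q τ ^ a := mdifferentiable_const.mul (hpow a)
      refine ⟨by
        simp only [Finset.sum_insert ha]
        exact hd1.add hd, ?_⟩
      rw [Finset.sum_insert ha, show ofHol _ _ = MeroH.const (t.coeff a) * ofHol _ (hpow a) +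
        ofHol _ hd from ofHol_congr _
          ((mdifferentiable_const.mul (hpow a)).add hd) (funext fun τ => Finset.sum_insert ha)]
      convert ((IsExp.const (h := 1) (t.coeff a)).mul (hexp1 a)).add hexp using 2
      rw [HahnSeries.C_apply, HahnSeries.single_mul_single, zero_add, mul_one]
  obtain ⟨hPd, hPexp⟩ := hP T
  have hWd : MDiff fun τ => (X τ - P τ) * q τ ^ (-1 : ℤ) := (hX.sub hPd).mul (hpow (-1))
  have hW : IsExp 1 (ofHol _ hWd)
      ((t - ∑ n ∈ T, HahnSeries.single n (t.coeff n)) * HahnSeries.single (-1) 1) := by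
    rw [show ofHol _ hWd = (ofHol X hX - ofHol P hPd) * ofHol _ (hpow (-1)) from rfl]
    exact (ht.sub hPexp).mul (hexp1 (-1))
  obtain ⟨l, hl⟩ := exists_tendsto_of_isExp one_pos hW fun m hm => by
    rw [show m = (m + 1) + (-1) by ring, HahnSeries.coeff_mul_single_add, mul_one,
      HahnSeries.coeff_sub, HahnSeries.coeff_sum]
    simp only [HahnSeries.coeff_single]
    by_cases hmem : m + 1 ∈ T
    · refine sub_eq_zero.2 ((Finset.sum_eq_single_of_mem _ hmem fun b _ hb => ?_).trans ?_).symm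
      · exact if_neg (Ne.symm hb)
      · exact if_pos rfl
    · refine Eq.trans (congrArg _ (Finset.sum_eq_zero fun b hb => ?_)) ?_
      · exact if_neg fun h : m + 1 = b => hmem (h ▸ hb)
      rw [sub_zero]
      refine HahnSeries.coeff_eq_zero_of_lt_order ?_
      simp only [T, s, Finset.mem_insert, Finset.mem_Ico] at hmem
      omega
  have hq0 : Tendsto q atImInfty (𝓝 0) := qParam_tendsto_atImInfty one_pos
  have hmul := hl.mul hq0
  rw [mul_zero] at hmul
  refine hmul.congr fun τ => ?_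
  simp only [P, T]
  rw [zpow_neg_one, inv_mul_cancel_right₀ (hqne τ), Finset.sum_insert
    (fun h => by simp [s] at h), zpow_zero, mul_one]

/-- **The residue identity.** -/
theorem coeff_mul_qExpansion_eq_zero (f : CuspForm (Gamma0 N) 2) :
    (coeffMap ι (u : LaurentSeries L) *
      HahnSeries.ofPowerSeries ℤ ℂ (qExpansion 1 f)).coeff 0 = 0 := by
  classical
  have : (Gamma0 N).FiniteIndex := inferInstance
  let : Fintype (SL(2, ℤ) ⧸ Gamma0 N) := Fintype.ofFinite _
  obtain ⟨φ, hφ, hφU⟩ := mdifferentiable_nf (ordAt_embed_nonneg ι hvp hu)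
  have hcomp : ∀ γ : SL(2, ℤ), MDiff fun τ : ℍ => φ (γ • τ) := fun γ =>
    hφ.comp (mdifferentiable_smul (det_SL_pos γ))
  have hsl : ∀ γ : SL(2, ℤ), slComp γ (ofHol φ hφ) = ofHol _ (hcomp γ) := fun γ => by
    rw [ofHol, ofHol, slComp_mk]
    exact mk_congr _ _ fun z _ => by simp [moeb, ofComplex_apply]
  have hφinv : ∀ γ ∈ Gamma0 N, ∀ τ : ℍ, φ (γ • τ) = φ τ := fun γ hγ τ => by
    have h := slComp_embed ι u hγ
    rw [← hφU, hsl] at h
    exact congrFun (eq_of_ofHol_eq h) τ
  have hQ := MFCore.isForm_cuspForm f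
  have hfd : MDiff (⇑f : ℍ → ℂ) := hQ.isQ.holo
  set G : ℍ → ℂ := fun τ => φ τ * f τ with hG
  have hGd : MDiff G := hφ.mul hfd
  have hGinv : ∀ γ ∈ Gamma0 N, G ∣[(2 : ℤ)] γ = G := fun γ hγ => by
    have hf : (⇑f : ℍ → ℂ) ∣[(2 : ℤ)] γ = f :=
      SlashInvariantFormClass.slash_action_eq f _ (Subgroup.mem_map_of_mem _ hγ)
    funext τ
    have h1 := congrFun hf τ
    rw [ModularForm.SL_slash_apply] at h1 ⊢
    simp only [hG, hφinv γ hγ]
    rw [mul_assoc, h1]
  -- the sum over the cosets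
  set c : SL(2, ℤ) ⧸ Gamma0 N → (ℍ → ℂ) := fun q => G ∣[(2 : ℤ)] q.out⁻¹ with hc
  have hcj : ∀ (g : SL(2, ℤ)) (q : SL(2, ℤ) ⧸ Gamma0 N),
      c q ∣[(2 : ℤ)] g = c (g⁻¹ • q) := by
    intro g q
    have hmem : (q.out⁻¹ * g) * (g⁻¹ • q).out ∈ Gamma0 N := by
      have h1 : ((g⁻¹ * q.out : SL(2, ℤ)) : SL(2, ℤ) ⧸ Gamma0 N) =
          ((g⁻¹ • q).out : SL(2, ℤ)) := by
        rw [QuotientGroup.out_eq', ← smul_eq_mul, ← MulAction.Quotient.smul_coe,
          QuotientGroup.out_eq']
      have := QuotientGroup.eq.1 h1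
      simpa [mul_inv_rev, inv_inv] using this
    simp only [hc]
    rw [← SlashAction.slash_mul, show q.out⁻¹ * g =
      ((q.out⁻¹ * g) * (g⁻¹ • q).out) * (g⁻¹ • q).out⁻¹ by group, SlashAction.slash_mul,
      hGinv _ hmem]
  set F : ℍ → ℂ := ∑ q, c q with hF
  have hFinv : ∀ g : SL(2, ℤ), F ∣[(2 : ℤ)] g = F := fun g => by
    rw [hF, SlashAction.sum_slash]
    simp only [hcj]
    exact Fintype.sum_equiv (MulAction.toPerm g⁻¹) _ _ fun q => rfl
  have hcd : ∀ q, MDiff (c q) := fun q => MFCore.mdiff_slash_SL hGd _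
  have hFd : MDiff F := by
    rw [hF, show (∑ q, c q) = fun τ => ∑ q, c q τ from funext fun τ => Finset.sum_apply _ _ _]
    rw [UpperHalfPlane.mdifferentiable_iff]
    exact (DifferentiableOn.fun_sum fun q _ => UpperHalfPlane.mdifferentiable_iff.1 (hcd q))
  set q1 : SL(2, ℤ) ⧸ Gamma0 N := ((1 : SL(2, ℤ)) : SL(2, ℤ) ⧸ Gamma0 N) with hq1
  have hq1c : c q1 = G := by
    simp only [hc]
    refine hGinv _ ?_
    have := QuotientGroup.eq.1 (QuotientGroup.out_eq' q1)
    simpa using this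
  have hzero : ∀ q, q ≠ q1 → IsZeroAtImInfty (c q) := by
    intro q hq
    obtain ⟨s, hs, hs0⟩ := exists_series_nonneg ι hvp hq hu
    have he : conjEmbed ι q u = ofHol _ (hcomp q.out⁻¹) := by
      rw [conjEmbed, RingHom.comp_apply, ← hφU, hsl]
    rw [he] at hs
    obtain ⟨l, hl⟩ := exists_tendsto_of_isExp (by exact_mod_cast NeZero.pos N) hs hs0
    have h2 : IsZeroAtImInfty ((⇑f : ℍ → ℂ) ∣[(2 : ℤ)] q.out⁻¹) :=
      CuspFormClass.zero_at_infty_slash f q.out⁻¹
    have h3 := hl.mul h2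
    rw [mul_zero] at h3
    refine h3.congr fun τ => ?_
    simp only [hc, hG, ModularForm.SL_slash_apply]
    ring
  -- the expansion at infinity
  have hexp : IsExp 1 (ofHol G hGd) (coeffMap ι (u : LaurentSeries L) *
      HahnSeries.ofPowerSeries ℤ ℂ (qExpansion 1 f)) := by
    rw [show ofHol G hGd = ofHol φ hφ * ofHol _ hfd from rfl, hφU]
    exact (isExp_embed ι u).mul
      (isExp_of_periodic one_pos hfd (by simpa using hQ.isQ.periodic) hQ.isQ.bdd)
  obtain ⟨s, hs, hX⟩ := isZeroAtImInfty_sub_principal hexp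
  refine constant_eq_zero hFd (hFinv _) (hFinv _) s hs (fun n => (coeffMap ι (u : LaurentSeries L) *
    HahnSeries.ofPowerSeries ℤ ℂ (qExpansion 1 f)).coeff n) ?_
  have hrest : IsZeroAtImInfty fun τ => ∑ q ∈ Finset.univ.erase q1, c q τ := by
    have := tendsto_finsetSum (Finset.univ.erase q1) fun q hq =>
      hzero q (Finset.mem_erase.1 hq).1
    simpa [IsZeroAtImInfty, ZeroAtFilter] using this
  unfold IsZeroAtImInfty Filter.ZeroAtFilter at hX hrest ⊢
  have h4 := Filter.Tendsto.add hX hrest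
  rw [add_zero] at h4
  refine h4.congr' (Eventually.of_forall fun τ => ?_)
  simp only [hF, Finset.sum_apply]
  rw [← Finset.add_sum_erase _ (fun q => c q τ) (Finset.mem_univ q1), hq1c]
  ring

end Fermat.Agent.OrdinaryP
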