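import Fermat.Agent.OrdinaryP.Piece
import Fermat.Agent.OrdinaryP.EigenRep

/-!
# Inertia relations on an eigen lattice

The relations of inertia and Frobenius on the ordinary part of the `p ^ n`-torsion, as matrices,
and their images on the lattice of an eigensystem with unit eigenvalue at `p`.
-/

set_option autoImplicit false

noncomputable section

open AlgebraicCurve ModularCurve IsLocalRing Matrix CuspForm
open Fermat.Agent.Reduction Fermat.Agent.GalRep Fermat.Agent.Cosets Fermat.Agent.Kummer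

namespace Fermat.Agent.OrdinaryP

local notation "Qb" => AlgebraicClosure ℚ
local notation "Γℚ" => AlgebraicClosure ℚ ≃ₐ[ℚ] AlgebraicClosure ℚ

section Describes

variable (N : ℕ) [NeZero N] (n : ℕ) [NeZero n]

local notation "Mn" => Matrix (Fin (homRank N)) (Fin (homRank N)) (ZMod n)

/-- A matrix describes an endomorphism on the `n`-torsion. -/
def Describes (X : Mn) (e : AddMonoid.End (JZero N)) : Prop :=
  ∀ x : Tors N n, ∃ y : Tors N n, (y : JZero N) = e (x : JZero N) ∧
    X *ᵥ torsCoord N n x = torsCoord N n y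

variable {N n}

theorem Describes.mul {X Y : Mn} {e f : AddMonoid.End (JZero N)} (hX : Describes N n X e)
    (hY : Describes N n Y f) : Describes N n (X * Y) (e * f) := fun x => by
  obtain ⟨y, hy, hYy⟩ := hY x
  obtain ⟨z, hz, hXz⟩ := hX y
  exact ⟨z, by rw [hz, hy]; rfl, by rw [← Matrix.mulVec_mulVec, hYy, hXz]⟩

theorem Describes.sub {X Y : Mn} {e f : AddMonoid.End (JZero N)} (hX : Describes N n X e)
    (hY : Describes N n Y f) : Describes N n (X - Y) (e - f) := fun x => by
  obtain ⟨y, hy, hXy⟩ := hX x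
  obtain ⟨z, hz, hYz⟩ := hY x
  exact ⟨y - z, by rw [AddSubgroup.coe_sub, hy, hz]; rfl,
    by rw [Matrix.sub_mulVec, hXy, hYz, map_sub]⟩

theorem Describes.add {X Y : Mn} {e f : AddMonoid.End (JZero N)} (hX : Describes N n X e)
    (hY : Describes N n Y f) : Describes N n (X + Y) (e + f) := fun x => by
  obtain ⟨y, hy, hXy⟩ := hX x
  obtain ⟨z, hz, hYz⟩ := hY x
  exact ⟨y + z, by rw [AddSubgroup.coe_add, hy, hz]; rfl,
    by rw [Matrix.add_mulVec, hXy, hYz, map_add]⟩

theorem describes_one : Describes N n 1 1 :=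
  fun x => ⟨x, rfl, Matrix.one_mulVec _⟩

theorem Describes.pow {X : Mn} {e : AddMonoid.End (JZero N)} (hX : Describes N n X e) :
    ∀ k : ℕ, Describes N n (X ^ k) (e ^ k)
  | 0 => by rw [pow_zero, pow_zero]; exact describes_one
  | k + 1 => by rw [pow_succ, pow_succ]; exact (hX.pow k).mul hX

theorem describes_natCast (c : ℕ) : Describes N n (c : Mn) (c • 1) := fun x =>
  ⟨c • x, by rw [AddSubgroup.coe_nsmul]; rfl, by
    rw [← nsmul_one c, Matrix.smul_mulVec, Matrix.one_mulVec, map_nsmul]⟩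

theorem describes_smul (σ : Γℚ) :
    Describes N n (torsRho N n σ) (DistribSMul.toAddMonoidHom (JZero N) σ) := fun x =>
  ⟨JZero.torsionGaloisRep N n σ x, JZero.coe_torsionGaloisRep_apply N σ x, torsRho_mulVec N n σ x⟩

theorem describes_hecke (q : Nat.Primes) :
    Describes N n ((heckeMat N q).map (Int.cast : ℤ → ZMod n))
      (heckeOperatorBar N q).toAddMonoidHom := fun x =>
  ⟨torsHecke N n q x, rfl, (torsCoord_torsHecke N n q x).symm⟩

/-- An endomorphism killing the `n`-torsion has matrix zero. -/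
theorem Describes.eq_zero {X : Mn} {e : AddMonoid.End (JZero N)} (hX : Describes N n X e)
    (h : ∀ x : JZero N, n • x = 0 → e x = 0) : X = 0 := by
  refine ext_of_mulVec_torsCoord N n fun x => ?_
  obtain ⟨y, hy, hXy⟩ := hX x
  rw [hXy, Matrix.zero_mulVec]
  have hy0 : y = 0 := Subtype.ext (by rw [hy, h _ (nsmul_eq_zero_of_mem N n x.2)]; rfl)
  rw [hy0, map_zero]

end Describes

/-- The relation of a Frobenius element at `p`. -/
def frobRel (N p : ℕ) [NeZero N] [hp : Fact p.Prime] (φ : Γℚ) : AddMonoid.End (JZero N) :=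
  let e : AddMonoid.End (JZero N) := DistribSMul.toAddMonoidHom (JZero N) φ
  e * e - heckeAt N p * e + p • (1 : AddMonoid.End (JZero N))

theorem frobRel_apply (N p : ℕ) [NeZero N] [hp : Fact p.Prime] (φ : Γℚ) (x : JZero N) :
    frobRel N p φ x = φ • φ • x - heckeOperatorBar N ⟨p, hp.out⟩ (φ • x) + p • x := rfl

variable {p : ℕ} [hp : Fact p.Prime] {A : ValuationSubring Qb} (hA : A.LiesOverPrime p) (N : ℕ)
  [NeZero N] (hpN : ¬ p ∣ N)

set_option quotPrecheck false in
local notation "pp" => (⟨p, Fact.out⟩ : Nat.Primes)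

include hA hpN in
/-- The relations on the `p ^ n`-torsion. -/
theorem exists_torsRho_ordinary : ∃ k : ℕ, ∀ σ ∈ A.inertiaSubgroupIn ℚ, ∀ c : ℕ,
    (∀ μ : Qb, μ ^ p = 1 → σ μ = μ ^ c) → ∀ n : ℕ,
      haveI : NeZero (p ^ n) := ⟨pow_ne_zero n hp.out.ne_zero⟩
      let T : Matrix (Fin (homRank N)) (Fin (homRank N)) (ZMod (p ^ n)) :=
        (heckeMat N pp).map (Int.cast : ℤ → ZMod (p ^ n))
      (∀ τ ∈ A.inertiaSubgroupIn ℚ,
        ((torsRho N (p ^ n) σ -
          (c : Matrix (Fin (homRank N)) (Fin (homRank N)) (ZMod (p ^ n)))) * T ^ k) ^ n *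
            (torsRho N (p ^ n) τ - 1) = 0) ∧
      ∀ φ : Γℚ, A.IsFrobeniusAt φ p → ((torsRho N (p ^ n) σ -
          (c : Matrix (Fin (homRank N)) (Fin (homRank N)) (ZMod (p ^ n)))) * T ^ k) ^ n *
        (torsRho N (p ^ n) φ * torsRho N (p ^ n) φ - T * torsRho N (p ^ n) φ +
          (p : Matrix (Fin (homRank N)) (Fin (homRank N)) (ZMod (p ^ n)))) = 0 := by
  obtain ⟨k, hk⟩ := exists_pow_kill_pow hA N hpN
  refine ⟨k, fun σ hσ c hc n => ?_⟩
  have : NeZero (p ^ n) := ⟨pow_ne_zero n hp.out.ne_zero⟩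
  intro T
  have hT : Describes N (p ^ n) T (heckeAt N p) := describes_hecke pp
  have hY := (((describes_smul (N := N) (n := p ^ n) σ).sub (describes_natCast c)).mul
    (hT.pow k)).pow n
  refine ⟨fun τ hτ => (hY.mul ((describes_smul τ).sub describes_one)).eq_zero fun x hx => ?_,
    fun φ hφ => (hY.mul ((((describes_smul φ).mul (describes_smul φ)).sub
      (hT.mul (describes_smul φ))).add (describes_natCast p))).eq_zero fun x hx => ?_⟩
  · refine hk σ hσ c hc n (τ • x - x) ?_ ?_
    · rw [nsmul_sub, ← GalRep.galois_nsmul N, hx, GalRep.galois_zero, sub_zero]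
    · rw [map_sub, Level.spBar_inertia A hA N hpN hτ, sub_self]
  · refine hk σ hσ c hc n (frobRel N p φ x) ?_ ?_
    · rw [← map_nsmul, hx, map_zero]
    · rw [frobRel_apply]
      exact Level.spBar_relation A hA N hpN (Level.heckeFrobLift A hA N hpN) hφ x

/-! ### On the lattice -/

section Lattice

variable {O : Type} [CommRing O]

/-- `X` restricts to `S` along `P`. -/
def Intertwines {d : ℕ} (P : Matrix (Fin d) (Fin 2) O) (X : Matrix (Fin d) (Fin d) O)
    (S : Matrix (Fin 2) (Fin 2) O) : Prop :=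
  X * P = P * S

variable {d : ℕ} {P : Matrix (Fin d) (Fin 2) O} {X Y : Matrix (Fin d) (Fin d) O}
  {S T : Matrix (Fin 2) (Fin 2) O}

theorem Intertwines.mul (hX : Intertwines P X S) (hY : Intertwines P Y T) :
    Intertwines P (X * Y) (S * T) := by
  unfold Intertwines at *
  rw [Matrix.mul_assoc, hY, ← Matrix.mul_assoc, hX, Matrix.mul_assoc]

theorem Intertwines.sub (hX : Intertwines P X S) (hY : Intertwines P Y T) :
    Intertwines P (X - Y) (S - T) := by
  unfold Intertwines at *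
  rw [Matrix.sub_mul, Matrix.mul_sub, hX, hY]

theorem Intertwines.add (hX : Intertwines P X S) (hY : Intertwines P Y T) :
    Intertwines P (X + Y) (S + T) := by
  unfold Intertwines at *
  rw [Matrix.add_mul, Matrix.mul_add, hX, hY]

theorem intertwines_one : Intertwines P 1 1 := by
  unfold Intertwines
  rw [Matrix.one_mul, Matrix.mul_one]

theorem intertwines_natCast (c : ℕ) :
    Intertwines P (c : Matrix (Fin d) (Fin d) O) (c : Matrix (Fin 2) (Fin 2) O) := by
  unfold Intertwines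
  rw [← nsmul_one c, ← nsmul_one c, Matrix.smul_mul, Matrix.one_mul, Matrix.mul_smul,
    Matrix.mul_one]

theorem Intertwines.pow (hX : Intertwines P X S) : ∀ k : ℕ, Intertwines P (X ^ k) (S ^ k)
  | 0 => by rw [pow_zero, pow_zero]; exact intertwines_one
  | k + 1 => by rw [pow_succ, pow_succ]; exact (hX.pow k).mul hX

/-- Restriction of entries in an ideal. -/
theorem Intertwines.mem {Q : Matrix (Fin 2) (Fin d) O} (hQP : Q * P = 1)
    (hX : Intertwines P X S) {I : Ideal O} (h : ∀ i j, X i j ∈ I) (i j : Fin 2) : S i j ∈ I := by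
  have hS : S = Q * (X * P) := by rw [hX, ← Matrix.mul_assoc, hQP, Matrix.one_mul]
  rw [hS, Matrix.mul_apply]
  refine sum_mem fun l _ => Ideal.mul_mem_left _ _ ?_
  rw [Matrix.mul_apply]
  exact sum_mem fun m _ => Ideal.mul_mem_right _ _ (h l m)

end Lattice

variable {O : Type} [CommRing O] [IsDomain O] [IsDiscreteValuationRing O]
  [IsAdicComplete (maximalIdeal O) O] [CharZero O] {hpO : (p : O) ∈ maximalIdeal O}
  {κ : heckeAlgebra N 2 ∅ →+* O}

omit [CharZero O] in
include hA hpN in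
/-- **Inertia and Frobenius on the lattice of an ordinary eigensystem.** -/
theorem EigenRep.ordinary (E : EigenRep N p hpO κ) (hu : IsUnit (κ (heckeOp N pp)))
    {σ : Γℚ} (hσ : σ ∈ A.inertiaSubgroupIn ℚ) {c : ℕ}
    (hc : ∀ μ : Qb, μ ^ p = 1 → σ μ = μ ^ c) (n : ℕ) :
    (∀ τ ∈ A.inertiaSubgroupIn ℚ, ∀ i j,
      ((E.R σ - (c : Matrix (Fin 2) (Fin 2) O)) ^ n * (E.R τ - 1)) i j ∈ maximalIdeal O ^ n) ∧
    ∀ φ : Γℚ, A.IsFrobeniusAt φ p → ∀ i j, ((E.R σ - (c : Matrix (Fin 2) (Fin 2) O)) ^ n *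
      (E.R φ * E.R φ - κ (heckeOp N pp) • E.R φ + (p : O) • 1)) i j ∈ maximalIdeal O ^ n := by
  have : NeZero (p ^ n) := ⟨pow_ne_zero n hp.out.ne_zero⟩
  obtain ⟨k, hk⟩ := exists_torsRho_ordinary hA N hpN
  obtain ⟨h1, h2⟩ := hk σ hσ c hc n
  set a := κ (heckeOp N pp) with ha
  set Tz : Matrix (Fin (homRank N)) (Fin (homRank N)) ℤ_[p] :=
    (heckeMat N pp).map (Int.cast : ℤ → ℤ_[p]) with hTz
  set f := (padicHom p O hpO).mapMatrix (m := Fin (homRank N)) with hf
  have hR : ∀ g, Intertwines E.P (f (E.Rp g)) (E.R g) := E.intertwine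
  have hT : Intertwines E.P (f Tz) (a • (1 : Matrix (Fin 2) (Fin 2) O)) := by
    unfold Intertwines
    rw [hf, hTz, mapMatrix_intCast p hpO, E.eigen, Matrix.mul_smul, Matrix.mul_one]
  have hmap : (PadicInt.toZModPow n).mapMatrix Tz =
      (heckeMat N pp).map (Int.cast : ℤ → ZMod (p ^ n)) :=
    Matrix.ext fun i j => map_intCast (PadicInt.toZModPow n) _
  have key : ∀ Z : Matrix (Fin 2) (Fin 2) O,
      (((E.R σ - (c : Matrix (Fin 2) (Fin 2) O)) *
          (a • (1 : Matrix (Fin 2) (Fin 2) O)) ^ k) ^ n * Z) =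
        (a ^ k) ^ n • ((E.R σ - (c : Matrix (Fin 2) (Fin 2) O)) ^ n * Z) := fun Z => by
    rw [smul_pow, one_pow, Matrix.mul_smul, Matrix.mul_one, smul_pow, Matrix.smul_mul]
  have hcancel : ∀ Z : Matrix (Fin 2) (Fin 2) O,
      (∀ i j, (((E.R σ - (c : Matrix (Fin 2) (Fin 2) O)) *
          (a • (1 : Matrix (Fin 2) (Fin 2) O)) ^ k) ^ n * Z) i j ∈ maximalIdeal O ^ n) →
        ∀ i j, ((E.R σ - (c : Matrix (Fin 2) (Fin 2) O)) ^ n * Z) i j ∈ maximalIdeal O ^ n :=
    fun Z h i j => by
      have := h i j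
      rwa [key, Matrix.smul_apply, smul_eq_mul, Ideal.unit_mul_mem_iff_mem _ ((hu.pow k).pow n)]
        at this
  constructor
  · intro τ hτ
    refine hcancel _ ((((hR σ).sub (intertwines_natCast c)).mul (hT.pow k)).pow n |>.mul
      ((hR τ).sub intertwines_one) |>.mem E.Q_mul_P fun i j => ?_)
    have h := h1 τ hτ
    have h0 : (PadicInt.toZModPow n).mapMatrix
        (((E.Rp σ - (c : Matrix (Fin (homRank N)) (Fin (homRank N)) ℤ_[p])) * Tz ^ k) ^ n *
          (E.Rp τ - 1)) = 0 := by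
      rw [map_mul, map_pow, map_mul, map_pow, map_sub, map_sub, map_natCast, map_one,
        E.toZModPow_Rp, E.toZModPow_Rp, hmap]
      exact h
    have h3 := mapMatrix_mem_pow p hpO h0 i j
    rw [map_mul, map_pow, map_mul, map_pow, map_sub, map_sub, map_natCast, map_one] at h3
    exact h3
  · intro φ hφ
    have hpInt : Intertwines E.P ((p : Matrix (Fin (homRank N)) (Fin (homRank N)) O))
        ((p : O) • (1 : Matrix (Fin 2) (Fin 2) O)) := by
      rw [Nat.cast_smul_eq_nsmul, nsmul_one]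
      exact intertwines_natCast p
    have hTR : Intertwines E.P (f Tz * f (E.Rp φ)) (a • E.R φ) := by
      have := hT.mul (hR φ)
      rwa [Matrix.smul_mul, Matrix.one_mul] at this
    refine hcancel _ ((((hR σ).sub (intertwines_natCast c)).mul (hT.pow k)).pow n |>.mul
      ((((hR φ).mul (hR φ)).sub hTR).add hpInt) |>.mem E.Q_mul_P fun i j => ?_)
    have h := h2 φ hφ
    have h0 : (PadicInt.toZModPow n).mapMatrix
        (((E.Rp σ - (c : Matrix (Fin (homRank N)) (Fin (homRank N)) ℤ_[p])) * Tz ^ k) ^ n *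
          (E.Rp φ * E.Rp φ - Tz * E.Rp φ +
            (p : Matrix (Fin (homRank N)) (Fin (homRank N)) ℤ_[p]))) = 0 := by
      rw [map_mul, map_pow, map_mul, map_pow, map_sub, map_add, map_sub, map_mul, map_mul,
        map_natCast, map_natCast, E.toZModPow_Rp, E.toZModPow_Rp, hmap]
      exact h
    have h3 := mapMatrix_mem_pow p hpO h0 i j
    rw [map_mul, map_pow, map_mul, map_pow, map_sub, map_add, map_sub, map_mul, map_mul,
      map_natCast, map_natCast] at h3
    exact h3

end Fermat.Agent.OrdinaryP
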